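import Fermat.Agent.IntStr.Basic
import Fermat.Prelude.Def_ModularForm_HeckeOperator

set_option autoImplicit false

noncomputable section

namespace Fermat.Agent.IntStr

open UpperHalfPlane ModularForm CongruenceSubgroup Matrix.SpecialLinearGroup Filter
open scoped MatrixGroups Manifold Topology

/-- A power series has integer coefficients. -/
def IsInt (f : PowerSeries ℂ) : Prop := ∀ n : ℕ, ∃ m : ℤ, f.coeff n = (m : ℂ)

theorem E4_int : IsInt (qExpansion 1 E₄) := by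
  intro n
  rw [EisensteinSeries.E_qExpansion_coeff (by norm_num) (by decide)]
  split_ifs with h
  · exact ⟨1, by simp⟩
  · refine ⟨240 * (ArithmeticFunction.sigma (4 - 1) n : ℕ), ?_⟩
    have h4 : bernoulli 4 = -1/30 := by
      rw [bernoulli_eq_bernoulli'_of_ne_one (by norm_num), bernoulli'_four]
    rw [h4]
    push_cast
    ring

theorem bernoulli_six : bernoulli 6 = 1/42 := by
  rw [bernoulli_eq_bernoulli'_of_ne_one (by norm_num), bernoulli'_def]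
  rw [Finset.sum_range_succ, Finset.sum_range_succ, Finset.sum_range_succ, Finset.sum_range_succ,
    Finset.sum_range_succ, Finset.sum_range_succ, Finset.sum_range_zero]
  rw [bernoulli'_zero, bernoulli'_one, bernoulli'_two, bernoulli'_three, bernoulli'_four]
  have h5 : bernoulli' 5 = 0 := bernoulli'_eq_zero_of_odd (by decide) (by norm_num)
  rw [h5]
  norm_num [Nat.choose]

theorem E6_int : IsInt (qExpansion 1 E₆) := by
  intro n
  rw [EisensteinSeries.E_qExpansion_coeff (by norm_num) (by decide)]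
  split_ifs with h
  · exact ⟨1, by simp⟩
  · refine ⟨-504 * (ArithmeticFunction.sigma (6 - 1) n : ℕ), ?_⟩
    rw [bernoulli_six]
    push_cast
    ring

theorem E4_tendsto : Tendsto (E₄ : ℍ → ℂ) atImInfty (𝓝 1) := by
  have hmf : IsMF ⊤ 4 (E₄ : ℍ → ℂ) := IsMF.of_modularForm_SL E₄
  have han := hmf.analyticAt (Subgroup.mem_top _)
  have hper := hmf.periodic (Subgroup.mem_top _)
  have h0 : cuspFunction 1 (E₄ : ℍ → ℂ) 0 = 1 := by
    have := EisensteinSeries.E_qExpansion_coeff_zero (k := 4) (by norm_num) (by decide)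
    rw [qExpansion_coeff] at this
    simpa using this
  have h1 : Tendsto (fun τ : ℍ => cuspFunction 1 (E₄ : ℍ → ℂ) (Function.Periodic.qParam 1 τ))
      atImInfty (𝓝 1) := by
    rw [← h0]
    exact han.continuousAt.tendsto.comp (qParam_tendsto_atImInfty one_pos)
  refine h1.congr fun τ => ?_
  exact eq_cuspFunction τ one_ne_zero hper

theorem decomp (N : ℕ) [NeZero N] (γ : SL(2, ℤ)) :
    ∃ (γ' : SL(2, ℤ)) (A B D : ℤ) (hAD : (A : ℝ) * D ≠ 0), 0 < A ∧ 0 < D ∧ A * D = N ∧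
      (D = 1 ↔ γ ∈ Gamma0 N) ∧
      heckeDiagMatrix N * (mapGL ℝ γ) = (mapGL ℝ γ') * upperTriangularGL A B D hAD := by
  have hN : 0 < N := Nat.pos_of_ne_zero (NeZero.ne N)
  set a := γ 0 0 with ha
  set b := γ 0 1 with hb
  set c := γ 1 0 with hc
  set d := γ 1 1 with hd
  have hdet : a * d - b * c = 1 := by
    have := γ.det_coe
    rw [Matrix.det_fin_two] at this
    exact this
  set A : ℤ := (Int.gcd N c : ℤ) with hA
  have hA0 : 0 < A := by
    rw [hA]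
    exact_mod_cast Int.gcd_pos_of_ne_zero_left _ (by exact_mod_cast hN.ne')
  obtain ⟨D, hD⟩ : A ∣ (N : ℤ) := Int.gcd_dvd_left ..
  obtain ⟨c', hc'⟩ : A ∣ c := Int.gcd_dvd_right ..
  have hD0 : 0 < D := by
    have : 0 < A * D := by rw [← hD]; exact_mod_cast hN
    exact (pos_iff_pos_of_mul_pos this).mp hA0
  have hcop1 : IsCoprime D c' := by
    have h := Int.isCoprime_iff_gcd_eq_one.mpr (Int.gcd_div_gcd_div_gcd (i := (N : ℤ)) (j := c) (by
      rw [hA] at hA0; exact_mod_cast hA0))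
    have e1 : (N : ℤ) / (Int.gcd N c : ℤ) = D := by
      rw [← hA]
      exact Int.ediv_eq_of_eq_mul_right hA0.ne' hD
    have e2 : c / (Int.gcd N c : ℤ) = c' := by
      rw [← hA]
      exact Int.ediv_eq_of_eq_mul_right hA0.ne' hc'
    rwa [e1, e2] at h
  have hcop2 : IsCoprime a c' := by
    refine ⟨d, -(b * A), ?_⟩
    rw [hc'] at hdet
    linarith
  obtain ⟨x, y, hxy⟩ : IsCoprime (D * a) c' := hcop1.mul_left hcop2
  let γ' : SL(2, ℤ) := ⟨!![D * a, -y; c', x], by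
    rw [Matrix.det_fin_two_of]; linarith⟩
  have hAD : (A : ℝ) * D ≠ 0 := by
    have : 0 < A * D := mul_pos hA0 hD0
    exact_mod_cast this.ne'
  refine ⟨γ', A, x * N * b + y * d, D, hAD, hA0, hD0, hD.symm, ?_, ?_⟩
  · rw [Gamma0_mem, ← hc, ZMod.intCast_zmod_eq_zero_iff_dvd]
    constructor
    · intro h
      rw [h, mul_one] at hD
      rw [hD]
      exact ⟨c', hc'⟩
    · intro h
      have h1 : A = N := by
        rw [hA, Int.gcd_eq_left (by exact_mod_cast hN.le) h]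
      rw [h1] at hD
      have : (N : ℤ) ≠ 0 := by exact_mod_cast hN.ne'
      have h2 : (N : ℤ) * 1 = N * D := by rw [mul_one]; exact hD
      exact (mul_left_cancel₀ this h2).symm
  · apply Units.ext
    have hNr : (N : ℝ) = A * D := by exact_mod_cast hD
    have hcr : (c : ℝ) = A * c' := by exact_mod_cast hc'
    have hxyr : (x : ℝ) * (D * a) + y * c' = 1 := by exact_mod_cast hxy
    have hdetr : (a : ℝ) * d - b * c = 1 := by exact_mod_cast hdet
    rw [Units.val_mul, Units.val_mul, val_heckeDiagMatrix hN.ne', val_upperTriangularGL]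
    have key : ∀ (g : SL(2, ℤ)) (i j : Fin 2),
        ((mapGL ℝ g : GL (Fin 2) ℝ) : Matrix (Fin 2) (Fin 2) ℝ) i j = ((g i j : ℤ) : ℝ) :=
      fun g i j => by simp
    have e1 : ((mapGL ℝ γ : GL (Fin 2) ℝ) : Matrix (Fin 2) (Fin 2) ℝ) =
        !![(a : ℝ), b; c, d] := by
      ext i j
      fin_cases i <;> fin_cases j <;> simp [ha, hb, hc, hd]
    have e2 : ((mapGL ℝ γ' : GL (Fin 2) ℝ) : Matrix (Fin 2) (Fin 2) ℝ) =
        !![(D : ℝ) * a, -y; c', x] := by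
      ext i j
      rw [key]
      fin_cases i <;> fin_cases j <;> simp [γ']
    rw [e1, e2, Matrix.mul_fin_two, Matrix.mul_fin_two]
    ext i j
    fin_cases i <;> fin_cases j <;> simp
    · rw [hNr]; ring
    · rw [hNr]
      linear_combination (-(A * D * b : ℝ)) * hxyr - (D * y : ℝ) * hdetr - (D * y * b : ℝ) * hcr
    · rw [hcr]; ring
    · rw [hNr]
      linear_combination (-d : ℝ) * hxyr + (x * D : ℝ) * hdetr + (x * D * b : ℝ) * hcr

theorem E4_slash_upper_tendsto {A B D : ℤ} (hA : 0 < A) (hD : 0 < D) (hAD : (A : ℝ) * D ≠ 0) :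
    Tendsto ((E₄ : ℍ → ℂ) ∣[(4 : ℤ)] upperTriangularGL A B D hAD) atImInfty
      (𝓝 (1 * ((A * D : ℤ) : ℂ) ^ 3 * ((D : ℂ) ^ 4)⁻¹)) := by
  set U := upperTriangularGL (A : ℝ) B D hAD with hU
  have hU10 : U 1 0 = 0 := by simp [hU]
  have hdet : (U.det : ℝ) = A * D := by
    rw [Matrix.GeneralLinearGroup.val_det_apply, hU, val_upperTriangularGL,
      Matrix.det_fin_two_of]
    ring
  have hdetpos : 0 < (U.det : ℝ) := by
    rw [hdet]
    exact_mod_cast mul_pos hA hD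
  have h1 : ∀ τ : ℍ, ((E₄ : ℍ → ℂ) ∣[(4 : ℤ)] U) τ =
      E₄ (U • τ) * ((A * D : ℤ) : ℂ) ^ 3 * ((D : ℂ) ^ 4)⁻¹ := by
    intro τ
    rw [ModularForm.slash_apply]
    have h2 : denom U τ = D := by
      simp [UpperHalfPlane.denom, hU]
    have h3 : UpperHalfPlane.σ U = .refl ℝ ℂ := by
      rw [UpperHalfPlane.σ, if_pos hdetpos]
    rw [h2, h3, abs_of_pos hdetpos, hdet]
    simp only [ContinuousAlgEquiv.refl_apply]
    rw [show (4 : ℤ) - 1 = ((3 : ℕ) : ℤ) by norm_num, show (-4 : ℤ) = -((4 : ℕ) : ℤ) by norm_num,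
      zpow_neg, zpow_natCast, zpow_natCast]
    push_cast
    rfl
  rw [show ((E₄ : ℍ → ℂ) ∣[(4 : ℤ)] U) = fun τ => E₄ (U • τ) * ((A * D : ℤ) : ℂ) ^ 3 *
    ((D : ℂ) ^ 4)⁻¹ from funext h1]
  exact ((E4_tendsto.comp (tendsto_smul_atImInfty hU10)).mul_const _).mul_const _

theorem heckeDiag_eq (N : ℕ) [NeZero N] (h : ((N : ℤ) : ℝ) * ((1 : ℤ) : ℝ) ≠ 0) :
    heckeDiagMatrix N = upperTriangularGL ((N : ℤ) : ℝ) ((0 : ℤ) : ℝ) ((1 : ℤ) : ℝ) h := by
  apply Units.ext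
  rw [val_heckeDiagMatrix (NeZero.ne N), val_upperTriangularGL]
  simp

theorem E4_slash_slash (N : ℕ) [NeZero N] (γ : SL(2, ℤ)) :
    ∃ (A B D : ℤ) (hAD : (A : ℝ) * D ≠ 0), 0 < A ∧ 0 < D ∧ A * D = N ∧
      (D = 1 ↔ γ ∈ Gamma0 N) ∧
      ((E₄ : ℍ → ℂ) ∣[(4 : ℤ)] heckeDiagMatrix N) ∣[(4 : ℤ)] γ =
        (E₄ : ℍ → ℂ) ∣[(4 : ℤ)] upperTriangularGL A B D hAD := by
  obtain ⟨γ', A, B, D, hAD, hA, hD, hN, hiff, h⟩ := decomp N γ
  refine ⟨A, B, D, hAD, hA, hD, hN, hiff, ?_⟩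
  have h1 : (E₄ : ℍ → ℂ) ∣[(4 : ℤ)] (mapGL ℝ γ') = E₄ :=
    (IsMF.of_modularForm_SL E₄).slash γ' (Subgroup.mem_top _)
  rw [ModularForm.SL_slash, ← SlashAction.slash_mul]
  change (E₄ : ℍ → ℂ) ∣[(4 : ℤ)] (heckeDiagMatrix N * mapGL ℝ γ) = _
  rw [h, SlashAction.slash_mul, h1]

theorem E4N_isMF (N : ℕ) [NeZero N] :
    IsMF (Gamma0 N) 4 ((E₄ : ℍ → ℂ) ∣[(4 : ℤ)] heckeDiagMatrix N) where
  holo := (IsMF.of_modularForm_SL E₄).holo.slash 4 _
  bdd γ := by
    obtain ⟨A, B, D, hAD, -, -, -, -, h⟩ := E4_slash_slash N γ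
    rw [h]
    exact ((IsMF.of_modularForm_SL E₄).bdd_infty).slash _ (by simp)
  slash γ hγ := by
    obtain ⟨A, B, D, hAD, hA, hD, hN, hiff, h⟩ := E4_slash_slash N γ
    rw [h]
    have hD1 : D = 1 := hiff.mpr hγ
    subst hD1
    have hAN : A = N := by rw [← hN, mul_one]
    subst hAN
    have h1 : (E₄ : ℍ → ℂ) ∣[(4 : ℤ)] (mapGL ℝ (ModularGroup.T ^ B)) = E₄ :=
      (IsMF.of_modularForm_SL E₄).slash (ModularGroup.T ^ B) (Subgroup.mem_top _)
    have h2 : upperTriangularGL (((N : ℕ) : ℤ) : ℝ) (B : ℝ) ((1 : ℤ) : ℝ) hAD =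
        (mapGL ℝ (ModularGroup.T ^ B)) * heckeDiagMatrix N := by
      apply Units.ext
      rw [Units.val_mul, val_heckeDiagMatrix (NeZero.ne N), val_upperTriangularGL]
      have key : ∀ (g : SL(2, ℤ)) (i j : Fin 2),
          ((mapGL ℝ g : GL (Fin 2) ℝ) : Matrix (Fin 2) (Fin 2) ℝ) i j = ((g i j : ℤ) : ℝ) :=
        fun g i j => by simp
      have e2 : ((mapGL ℝ (ModularGroup.T ^ B) : GL (Fin 2) ℝ) : Matrix (Fin 2) (Fin 2) ℝ) =
          !![(1 : ℝ), B; 0, 1] := by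
        ext i j
        rw [key, ModularGroup.coe_T_zpow]
        fin_cases i <;> fin_cases j <;> simp
      rw [e2, Matrix.mul_fin_two]
      simp
    rw [h2, SlashAction.slash_mul, h1]

theorem E4N_stab (N : ℕ) [NeZero N] (γ : SL(2, ℤ))
    (hγ : ((E₄ : ℍ → ℂ) ∣[(4 : ℤ)] heckeDiagMatrix N) ∣[(4 : ℤ)] γ =
      ((E₄ : ℍ → ℂ) ∣[(4 : ℤ)] heckeDiagMatrix N)) : γ ∈ Gamma0 N := by
  obtain ⟨A, B, D, hAD, hA, hD, hN, hiff, h⟩ := E4_slash_slash N γ
  rw [← hiff]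
  rw [h] at hγ
  have hN0 : (0 : ℤ) < N := by exact_mod_cast Nat.pos_of_ne_zero (NeZero.ne N)
  have hAD' : (((N : ℕ) : ℤ) : ℝ) * ((1 : ℤ) : ℝ) ≠ 0 := by
    have : ((N : ℤ) : ℝ) ≠ 0 := by exact_mod_cast hN0.ne'
    simpa using this
  rw [heckeDiag_eq N hAD'] at hγ
  have t1 := E4_slash_upper_tendsto (B := B) hA hD hAD
  have t2 := E4_slash_upper_tendsto (B := 0) hN0 one_pos hAD'
  rw [hγ] at t1
  have h3 := tendsto_nhds_unique t1 t2
  rw [hN] at h3
  have hNc : (N : ℂ) ≠ 0 := by exact_mod_cast NeZero.ne N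
  have hDc : (D : ℂ) ≠ 0 := by exact_mod_cast hD.ne'
  simp only [Int.cast_natCast, mul_one, one_mul, Int.cast_one, one_pow, inv_one] at h3
  have h4 : (D : ℂ) ^ 4 = 1 := by
    have h5 : ((D : ℂ) ^ 4)⁻¹ = 1 := by
      apply mul_left_cancel₀ (pow_ne_zero 3 hNc)
      rw [mul_one]
      exact h3
    exact inv_eq_one.mp h5
  have h6 : D ^ 4 = 1 := by exact_mod_cast h4
  nlinarith [sq_nonneg (D ^ 2), sq_nonneg (D - 1), sq_nonneg (D + 1), mul_pos hD hD]

/-- `E₄(Nz)`. -/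
def E4N (N : ℕ) : ℍ → ℂ := ((N : ℂ) ^ 3)⁻¹ • ((E₄ : ℍ → ℂ) ∣[(4 : ℤ)] heckeDiagMatrix N)

theorem E4N_mf (N : ℕ) [NeZero N] : IsMF (Gamma0 N) 4 (E4N N) := (E4N_isMF N).smul _

theorem E4N_inj (N : ℕ) [NeZero N] (γ : SL(2, ℤ)) (hγ : E4N N ∣[(4 : ℤ)] γ = E4N N) :
    γ ∈ Gamma0 N := by
  apply E4N_stab N γ
  have hNc : ((N : ℂ) ^ 3)⁻¹ ≠ 0 := inv_ne_zero (pow_ne_zero 3 (by exact_mod_cast NeZero.ne N))
  rw [E4N, SL_smul_slash] at hγ
  exact smul_right_injective _ hNc hγ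

theorem E4N_apply (N : ℕ) [NeZero N] (τ : ℍ) :
    E4N N τ = E₄ (heckeDiagMatrix N • τ) := by
  have hNc : (N : ℂ) ≠ 0 := by exact_mod_cast NeZero.ne N
  rw [E4N, Pi.smul_apply, slash_heckeDiagMatrix_apply 4 (NeZero.ne N),
    show (4 : ℤ) - 1 = ((3 : ℕ) : ℤ) by norm_num, zpow_natCast, smul_eq_mul, ← mul_assoc,
    inv_mul_cancel₀ (pow_ne_zero 3 hNc), one_mul]

theorem T_mem_Gamma0 (N : ℕ) : ModularGroup.T ∈ Gamma0 N := by
  rw [Gamma0_mem, ModularGroup.coe_T]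
  simp

/-- general `V_N` operator on `q`-expansions -/
theorem hasSum_V {N : ℕ} (hN : N ≠ 0) {a : ℕ → ℂ} {f : ℍ → ℂ}
    (h : ∀ τ : ℍ, HasSum (fun m => a m • Function.Periodic.qParam 1 (τ : ℂ) ^ m) (f τ)) (τ : ℍ) :
    HasSum (fun m => (if N ∣ m then a (m / N) else 0) • Function.Periodic.qParam 1 (τ : ℂ) ^ m)
      (f (heckeDiagMatrix N • τ)) := by
  have h1 := h (heckeDiagMatrix N • τ)
  have hinj : Function.Injective (fun n : ℕ => N * n) :=
    fun a b h => Nat.eq_of_mul_eq_mul_left (Nat.pos_of_ne_zero hN) h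
  rw [← hinj.hasSum_iff]
  · have hq : Function.Periodic.qParam 1 ((heckeDiagMatrix N • τ : ℍ) : ℂ) =
        Function.Periodic.qParam 1 (τ : ℂ) ^ N := by
      rw [coe_heckeDiagMatrix_smul hN, Function.Periodic.qParam, Function.Periodic.qParam,
        ← Complex.exp_nat_mul]
      congr 1
      push_cast
      ring
    have h2 : ((fun m => (if N ∣ m then a (m / N) else 0) •
        Function.Periodic.qParam 1 (τ : ℂ) ^ m) ∘ fun n : ℕ => N * n) =
        fun m => a m • Function.Periodic.qParam 1 ((heckeDiagMatrix N • τ : ℍ) : ℂ) ^ m := by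
      funext n
      simp only [Function.comp_apply]
      rw [if_pos (dvd_mul_right N n), Nat.mul_div_cancel_left n (Nat.pos_of_ne_zero hN), pow_mul,
        hq]
    rw [h2]
    exact h1
  · intro m hm
    have : ¬ N ∣ m := fun ⟨n, hn⟩ => hm ⟨n, hn.symm⟩
    simp [this]

theorem coeff_unique {f : ℍ → ℂ} (hf : Continuous f) (ha : AnalyticAt ℂ (cuspFunction 1 f) 0)
    {c : ℕ → ℂ}
    (h : ∀ τ : ℍ, HasSum (fun m => c m • Function.Periodic.qParam 1 (τ : ℂ) ^ m) (f τ)) (n : ℕ) :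
    (qExpansion 1 f).coeff n = c n :=
  (UpperHalfPlane.qExpansion_coeff_unique (ContinuousMap.mk f hf) one_pos ha h n).symm

theorem E4N_coeff (N : ℕ) [NeZero N] (n : ℕ) :
    (qExpansion 1 (E4N N)).coeff n = if N ∣ n then (qExpansion 1 (E₄ : ℍ → ℂ)).coeff (n / N)
      else 0 := by
  have hmf : IsMF ⊤ 4 (E₄ : ℍ → ℂ) := IsMF.of_modularForm_SL E₄
  have h1 : ∀ τ : ℍ, HasSum (fun m => (qExpansion 1 (E₄ : ℍ → ℂ)).coeff m •
      Function.Periodic.qParam 1 (τ : ℂ) ^ m) (E₄ τ) := fun τ =>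
    hasSum_qExpansion one_pos (hmf.periodic (Subgroup.mem_top _)) hmf.holo hmf.bdd_infty τ
  have h2 : ∀ τ : ℍ, HasSum (fun m => (if N ∣ m then (qExpansion 1 (E₄ : ℍ → ℂ)).coeff (m / N)
      else 0) • Function.Periodic.qParam 1 (τ : ℂ) ^ m) (E4N N τ) := by
    intro τ
    rw [E4N_apply]
    exact hasSum_V (NeZero.ne N) h1 τ
  exact coeff_unique (E4N_mf N).holo.continuous ((E4N_mf N).analyticAt (T_mem_Gamma0 N)) h2 n

theorem E4N_int (N : ℕ) [NeZero N] : IsInt (qExpansion 1 (E4N N)) := by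
  intro n
  rw [E4N_coeff]
  split_ifs with h
  · exact E4_int _
  · exact ⟨0, by simp⟩

end Fermat.Agent.IntStr
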