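import Mathlib

set_option autoImplicit false

noncomputable section

namespace Fermat.Agent.IntStr

open UpperHalfPlane ModularForm CongruenceSubgroup Matrix Matrix.SpecialLinearGroup Filter
open scoped MatrixGroups Manifold

/-- Functions on `ℍ` that are modular forms of weight `k` for a subgroup `G` of `SL(2,ℤ)`. -/
structure IsMF (G : Subgroup SL(2, ℤ)) (k : ℤ) (f : ℍ → ℂ) : Prop where
  holo : MDiff f
  slash : ∀ γ ∈ G, f ∣[k] γ = f
  bdd : ∀ γ : SL(2, ℤ), IsBoundedAtImInfty (f ∣[k] γ)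

variable {G : Subgroup SL(2, ℤ)} {k l : ℤ} {f g : ℍ → ℂ}

theorem IsMF.zero : IsMF G k 0 where
  holo := mdifferentiable_const
  slash γ _ := by simp
  bdd γ := by simpa using zero_form_isBoundedAtImInfty

theorem IsMF.add (hf : IsMF G k f) (hg : IsMF G k g) : IsMF G k (f + g) where
  holo := hf.holo.add hg.holo
  slash γ hγ := by rw [SlashAction.add_slash, hf.slash γ hγ, hg.slash γ hγ]
  bdd γ := by
    rw [SlashAction.add_slash]
    exact (hf.bdd γ).add (hg.bdd γ)

theorem IsMF.smul (c : ℂ) (hf : IsMF G k f) : IsMF G k (c • f) where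
  holo := hf.holo.const_smul c
  slash γ hγ := by rw [SL_smul_slash, hf.slash γ hγ]
  bdd γ := by
    rw [SL_smul_slash]
    exact (hf.bdd γ).const_smul_left c

theorem IsMF.mul (hf : IsMF G k f) (hg : IsMF G l g) : IsMF G (k + l) (f * g) where
  holo := hf.holo.mul hg.holo
  slash γ hγ := by rw [mul_slash_SL2, hf.slash γ hγ, hg.slash γ hγ]
  bdd γ := by
    rw [mul_slash_SL2]
    exact (hf.bdd γ).mul (hg.bdd γ)

theorem IsMF.one : IsMF G 0 (1 : ℍ → ℂ) where
  holo := mdifferentiable_const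
  slash γ _ := is_invariant_one γ
  bdd γ := by
    rw [is_invariant_one γ]
    exact atImInfty.const_boundedAtFilter (1 : ℂ)

theorem IsMF.mono {G' : Subgroup SL(2, ℤ)} (h : G' ≤ G) (hf : IsMF G k f) : IsMF G' k f where
  holo := hf.holo
  slash γ hγ := hf.slash γ (h hγ)
  bdd := hf.bdd

theorem IsMF.cast (h : k = l) (hf : IsMF G k f) : IsMF G l f := h ▸ hf

/-- The space of modular forms of weight `k`, as a submodule of functions `ℍ → ℂ`. -/
def MF (G : Subgroup SL(2, ℤ)) (k : ℤ) : Submodule ℂ (ℍ → ℂ) where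
  carrier := {f | IsMF G k f}
  add_mem' hf hg := IsMF.add hf hg
  zero_mem' := IsMF.zero
  smul_mem' c _ hf := IsMF.smul c hf

theorem mem_MF : f ∈ MF G k ↔ IsMF G k f := Iff.rfl

instance MF.gradedMonoid : SetLike.GradedMonoid (MF G) where
  one_mem := IsMF.one
  mul_mem _ _ _ _ hf hg := IsMF.mul hf hg

theorem IsMF.pow (hf : IsMF G k f) (n : ℕ) : IsMF G (n * k) (f ^ n) := by
  have := SetLike.pow_mem_graded n (A := MF G) (show f ∈ MF G k from hf)
  rw [nsmul_eq_mul] at this
  exact this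

theorem MF_mono {G' : Subgroup SL(2, ℤ)} (h : G' ≤ G) (k : ℤ) : MF G k ≤ MF G' k :=
  fun _ hf => IsMF.mono h hf

/-- From a Mathlib modular form for (the image in `GL₂(ℝ)` of) a finite index subgroup. -/
theorem IsMF.of_modularForm [G.FiniteIndex] (F : ModularForm G k) : IsMF G k F where
  holo := F.holo'
  slash γ hγ := F.slash_action_eq' _ ⟨γ, hγ, rfl⟩
  bdd γ := by
    have hc : IsCusp (mapGL ℝ γ • OnePoint.infty) (G : Subgroup (GL (Fin 2) ℝ)) := by
      rw [Subgroup.IsArithmetic.isCusp_iff_isCusp_SL2Z]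
      exact isCusp_SL2Z_iff'.mpr ⟨γ, rfl⟩
    exact F.bdd_at_cusps' hc _ rfl

/-- To a Mathlib modular form for (the image in `GL₂(ℝ)` of) a finite index subgroup. -/
def IsMF.toModularForm [G.FiniteIndex] (hf : IsMF G k f) : ModularForm G k where
  toFun := f
  slash_action_eq' := by
    rintro _ ⟨γ, hγ, rfl⟩
    exact hf.slash γ hγ
  holo' := hf.holo
  bdd_at_cusps' {c} hc := by
    rw [Subgroup.IsArithmetic.isCusp_iff_isCusp_SL2Z] at hc
    rw [OnePoint.isBoundedAt_iff_forall_SL2Z hc]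
    exact fun γ _ => hf.bdd γ

@[simp] theorem IsMF.coe_toModularForm [G.FiniteIndex] (hf : IsMF G k f) :
    ⇑hf.toModularForm = f := rfl

/-- From a Mathlib modular form of level one. -/
theorem IsMF.of_modularForm_SL (F : ModularForm 𝒮ℒ k) : IsMF ⊤ k F where
  holo := F.holo'
  slash γ _ := F.slash_action_eq' _ ⟨γ, rfl⟩
  bdd γ := by
    have hc : IsCusp (mapGL ℝ γ • OnePoint.infty) 𝒮ℒ := isCusp_SL2Z_iff'.mpr ⟨γ, rfl⟩
    exact F.bdd_at_cusps' hc _ rfl

/-- To a Mathlib modular form of level one. -/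
def IsMF.toModularFormSL (hf : IsMF ⊤ k f) : ModularForm 𝒮ℒ k where
  toFun := f
  slash_action_eq' := by
    rintro _ ⟨γ, rfl⟩
    exact hf.slash γ trivial
  holo' := hf.holo
  bdd_at_cusps' {c} hc := by
    rw [OnePoint.isBoundedAt_iff_forall_SL2Z hc]
    exact fun γ _ => hf.bdd γ

@[simp] theorem IsMF.coe_toModularFormSL (hf : IsMF ⊤ k f) :
    ⇑hf.toModularFormSL = f := rfl

theorem periodic_of_slash_T_pow {M : ℕ}
    (hM : f ∣[k] (ModularGroup.T ^ M : SL(2, ℤ)) = f) :
    Function.Periodic (f ∘ ofComplex) (M : ℝ) := by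
  intro w
  by_cases! hw : 0 < w.im
  · have h2 : 0 < (w + (M : ℝ)).im := by simp [hw]
    simp only [Function.comp_apply]
    rw [ofComplex_apply_of_im_pos h2, ofComplex_apply_of_im_pos hw]
    have h := congrFun hM ⟨w, hw⟩
    rw [SL_slash_apply] at h
    have e1 : (ModularGroup.T ^ M : SL(2, ℤ)) • (⟨w, hw⟩ : ℍ) = ⟨w + (M : ℝ), h2⟩ := by
      have := UpperHalfPlane.modular_T_zpow_smul ⟨w, hw⟩ (M : ℤ)
      rw [zpow_natCast] at this
      rw [this]
      ext
      simp [add_comm]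
    have e2 : denom (ModularGroup.T ^ M : SL(2, ℤ)) (⟨w, hw⟩ : ℍ) = 1 := by
      have h3 := ModularGroup.coe_T_zpow (M : ℤ)
      rw [zpow_natCast] at h3
      rw [ModularGroup.denom_apply, h3]
      simp
    rw [e1, e2] at h
    simpa using h
  · have h2 : (w + (M : ℝ)).im ≤ 0 := by simpa using hw
    simp only [Function.comp_apply]
    rw [ofComplex_apply_of_im_nonpos h2, ofComplex_apply_of_im_nonpos hw]

theorem IsMF.slash_slash_conj (hf : IsMF G k f) (γ δ : SL(2, ℤ)) (h : γ * δ * γ⁻¹ ∈ G) :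
    (f ∣[k] γ) ∣[k] δ = f ∣[k] γ := by
  have h1 := hf.slash _ h
  rw [← SlashAction.slash_mul]
  conv_rhs => rw [← h1]
  rw [← SlashAction.slash_mul]
  congr 1
  group

theorem IsMF.periodic_slash (hf : IsMF G k f) {M : ℕ} (γ : SL(2, ℤ))
    (hM : γ * ModularGroup.T ^ M * γ⁻¹ ∈ G) :
    Function.Periodic ((f ∣[k] γ) ∘ ofComplex) (M : ℝ) :=
  periodic_of_slash_T_pow (k := k) (hf.slash_slash_conj γ _ hM)

theorem IsMF.holo_slash (hf : IsMF G k f) (γ : SL(2, ℤ)) : MDiff (f ∣[k] γ) :=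
  hf.holo.slash k _

theorem IsMF.periodic (hf : IsMF G k f) (hT : ModularGroup.T ∈ G) :
    Function.Periodic (f ∘ ofComplex) 1 := by
  have := hf.periodic_slash (M := 1) 1 (by simpa using hT)
  simpa using this

theorem IsMF.bdd_infty (hf : IsMF G k f) : IsBoundedAtImInfty f := by
  simpa using hf.bdd 1

theorem IsMF.analyticAt (hf : IsMF G k f) (hT : ModularGroup.T ∈ G) :
    AnalyticAt ℂ (cuspFunction 1 f) 0 :=
  analyticAt_cuspFunction_zero one_pos (hf.periodic hT) hf.holo hf.bdd_infty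

theorem IsMF.analyticAt_slash (hf : IsMF G k f) {M : ℕ} (hM0 : 0 < M) (γ : SL(2, ℤ))
    (hM : γ * ModularGroup.T ^ M * γ⁻¹ ∈ G) :
    AnalyticAt ℂ (cuspFunction M (f ∣[k] γ)) 0 :=
  analyticAt_cuspFunction_zero (by exact_mod_cast hM0) (hf.periodic_slash γ hM)
    (hf.holo_slash γ) (hf.bdd γ)

theorem IsMF.eq_zero_of_qExpansion (hf : IsMF G k f) (hT : ModularGroup.T ∈ G)
    (h : qExpansion 1 f = 0) : f = 0 :=
  (qExpansion_eq_zero_iff one_pos (hf.periodic hT) hf.holo hf.bdd_infty).mp h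

theorem IsMF.qExpansion_add (hf : IsMF G k f) (hg : IsMF G l g) (hT : ModularGroup.T ∈ G) :
    qExpansion 1 (f + g) = qExpansion 1 f + qExpansion 1 g :=
  UpperHalfPlane.qExpansion_add (hf.analyticAt hT) (hg.analyticAt hT)

theorem IsMF.qExpansion_sub (hf : IsMF G k f) (hg : IsMF G l g) (hT : ModularGroup.T ∈ G) :
    qExpansion 1 (f - g) = qExpansion 1 f - qExpansion 1 g :=
  UpperHalfPlane.qExpansion_sub (hf.analyticAt hT) (hg.analyticAt hT)

theorem IsMF.qExpansion_mul (hf : IsMF G k f) (hg : IsMF G l g) (hT : ModularGroup.T ∈ G) :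
    qExpansion 1 (f * g) = qExpansion 1 f * qExpansion 1 g :=
  UpperHalfPlane.qExpansion_mul (hf.analyticAt hT) (hg.analyticAt hT)

theorem IsMF.qExpansion_smul (hf : IsMF G k f) (hT : ModularGroup.T ∈ G) (c : ℂ) :
    qExpansion 1 (c • f) = c • qExpansion 1 f :=
  UpperHalfPlane.qExpansion_smul (hf.analyticAt hT) c

theorem IsMF.qExpansion_pow (hf : IsMF G k f) (hT : ModularGroup.T ∈ G) (n : ℕ) :
    qExpansion 1 (f ^ n) = qExpansion 1 f ^ n := by
  induction n with
  | zero => simpa using qExpansion_one 1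
  | succ n ih => rw [pow_succ, (hf.pow n).qExpansion_mul hf hT, ih, pow_succ]

theorem IsMF.eq_of_qExpansion (hf : IsMF G k f) (hg : IsMF G k g) (hT : ModularGroup.T ∈ G)
    (h : qExpansion 1 f = qExpansion 1 g) : f = g := by
  have h1 : IsMF G k (f - g) := by
    have := (MF G k).sub_mem (show f ∈ MF G k from hf) (show g ∈ MF G k from hg)
    exact this
  have h2 := h1.eq_zero_of_qExpansion hT (by rw [hf.qExpansion_sub hg hT, h, sub_self])
  exact sub_eq_zero.mp h2

/-- `q`-expansion of a finite sum. -/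
theorem qExpansion_sum {ι : Type*} (s : Finset ι) (F : ι → ℍ → ℂ)
    (hF : ∀ i ∈ s, IsMF G k (F i)) (hT : ModularGroup.T ∈ G) :
    qExpansion 1 (∑ i ∈ s, F i) = ∑ i ∈ s, qExpansion 1 (F i) := by
  classical
  induction s using Finset.induction_on with
  | empty => simpa using qExpansion_zero 1
  | insert i s hi ih =>
    rw [Finset.sum_insert hi, Finset.sum_insert hi]
    have h1 : IsMF G k (∑ i ∈ s, F i) :=
      (MF G k).sum_mem fun j hj => hF j (Finset.mem_insert_of_mem hj)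
    rw [(hF i (Finset.mem_insert_self i s)).qExpansion_add h1 hT,
      ih fun j hj => hF j (Finset.mem_insert_of_mem hj)]

/-- The product of two holomorphic functions on `ℍ` vanishes iff one factor does. -/
theorem mul_eq_zero_of_holo (hf : MDiff f) (hg : MDiff g) (h : f * g = 0) : f = 0 ∨ g = 0 := by
  have := (UpperHalfPlane.prod_eq_zero_iff (s := (Finset.univ : Finset (Fin 2)))
    (f := ![f, g]) (by simp [Fin.forall_fin_two, hf, hg])).mp (by simpa using h)
  simpa [Fin.exists_fin_two] using this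

end Fermat.Agent.IntStr
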