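import Fermat.Agent.IntStr.Galois

set_option autoImplicit false

noncomputable section

namespace Fermat.Agent.IntStr

open UpperHalfPlane ModularForm CongruenceSubgroup Matrix.SpecialLinearGroup Filter Asymptotics
open scoped MatrixGroups Manifold Topology

/-- Cusp forms, as functions on `ℍ`. -/
structure IsCF (G : Subgroup SL(2, ℤ)) (k : ℤ) (f : ℍ → ℂ) : Prop extends IsMF G k f where
  zero_cusp : ∀ γ : SL(2, ℤ), IsZeroAtImInfty (f ∣[k] γ)

variable {G : Subgroup SL(2, ℤ)} {k : ℤ} {f g : ℍ → ℂ}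

/-- From a Mathlib cusp form for a finite index subgroup. -/
theorem IsCF.of_cuspForm [G.FiniteIndex] (F : CuspForm G k) : IsCF G k F where
  holo := F.holo'
  slash γ hγ := F.slash_action_eq' _ ⟨γ, hγ, rfl⟩
  bdd γ := by
    have hc : IsCusp (mapGL ℝ γ • OnePoint.infty) (G : Subgroup (GL (Fin 2) ℝ)) := by
      rw [Subgroup.IsArithmetic.isCusp_iff_isCusp_SL2Z]
      exact isCusp_SL2Z_iff'.mpr ⟨γ, rfl⟩
    have h : IsZeroAtImInfty ((F : ℍ → ℂ) ∣[k] γ) := F.zero_at_cusps' hc _ rfl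
    exact h.isBoundedAtImInfty
  zero_cusp γ := by
    have hc : IsCusp (mapGL ℝ γ • OnePoint.infty) (G : Subgroup (GL (Fin 2) ℝ)) := by
      rw [Subgroup.IsArithmetic.isCusp_iff_isCusp_SL2Z]
      exact isCusp_SL2Z_iff'.mpr ⟨γ, rfl⟩
    exact F.zero_at_cusps' hc _ rfl

/-- To a Mathlib cusp form for a finite index subgroup. -/
def IsCF.toCuspForm [G.FiniteIndex] (hf : IsCF G k f) : CuspForm G k where
  toFun := f
  slash_action_eq' := by
    rintro _ ⟨γ, hγ, rfl⟩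
    exact hf.slash γ hγ
  holo' := hf.holo
  zero_at_cusps' {c} hc := by
    rw [Subgroup.IsArithmetic.isCusp_iff_isCusp_SL2Z] at hc
    rw [OnePoint.isZeroAt_iff_forall_SL2Z hc]
    exact fun γ _ => hf.zero_cusp γ

@[simp] theorem IsCF.coe_toCuspForm [G.FiniteIndex] (hf : IsCF G k f) :
    ⇑hf.toCuspForm = f := rfl

theorem disc_slash (γ : SL(2, ℤ)) :
    (ModularForm.discriminant : ℍ → ℂ) ∣[(12 : ℤ)] γ = ModularForm.discriminant :=
  CuspForm.discriminant.slash_action_eq' _ ⟨γ, rfl⟩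

theorem disc_mf : IsMF ⊤ 12 (ModularForm.discriminant : ℍ → ℂ) where
  holo := CuspForm.discriminant.holo'
  slash γ _ := disc_slash γ
  bdd γ := by
    rw [disc_slash]
    exact ModularForm.discriminant_isZeroAtImInfty.isBoundedAtImInfty

theorem disc_rat : IsRat (qExpansion 1 (ModularForm.discriminant : ℍ → ℂ)) := by
  have h1 : (ModularForm.discriminant : ℍ → ℂ) =
      (1 / 1728 : ℂ) • ((E₄ : ℍ → ℂ) ^ 3 * (E₆ : ℍ → ℂ) ^ 0) +
      (-1 / 1728 : ℂ) • ((E₄ : ℍ → ℂ) ^ 0 * (E₆ : ℍ → ℂ) ^ 2) := by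
    funext z
    simp only [Pi.mul_apply, Pi.pow_apply, Pi.add_apply, Pi.smul_apply, smul_eq_mul]
    rw [ModularForm.discriminant_eq_E₄_cube_sub_E₆_sq]
    ring
  have h3 : IsMF ⊤ 12 ((E₄ : ℍ → ℂ) ^ 3 * (E₆ : ℍ → ℂ) ^ 0) := lvl1Set_mf ⟨3, 0, by norm_num, rfl⟩
  have h2 : IsMF ⊤ 12 ((E₄ : ℍ → ℂ) ^ 0 * (E₆ : ℍ → ℂ) ^ 2) := lvl1Set_mf ⟨0, 2, by norm_num, rfl⟩
  rw [h1, (h3.smul _).qExpansion_add (h2.smul _) T_mem_top, h3.qExpansion_smul T_mem_top,
    h2.qExpansion_smul T_mem_top]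
  intro n
  obtain ⟨a, ha⟩ := mem_intSub.mp (qExpansion_mono_int 3 0) n
  obtain ⟨b, hb⟩ := mem_intSub.mp (qExpansion_mono_int 0 2) n
  refine ⟨1 / 1728 * a + -1 / 1728 * b, ?_⟩
  rw [map_add, PowerSeries.coeff_smul, PowerSeries.coeff_smul, ha, hb]
  push_cast
  simp only [smul_eq_mul]

/-- `f^N / Δ` is a modular form for a cusp form `f` for `Γ₀(N)`. -/
theorem IsCF.exists_div_disc {N : ℕ} [NeZero N] (hf : IsCF (Gamma0 N) k f) :
    ∃ h : ℍ → ℂ, IsMF (Gamma0 N) (N * k - 12) h ∧ f ^ N = ModularForm.discriminant * h := by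
  have hN0 : (0 : ℝ) < N := by exact_mod_cast NeZero.pos N
  have hNne : (N : ℝ) ≠ 0 := hN0.ne'
  refine ⟨f ^ N / ModularForm.discriminant, ⟨?_, ?_, ?_⟩, ?_⟩
  · exact (hf.toIsMF.pow N).holo.div disc_mf.holo ModularForm.discriminant_ne_zero
  · intro γ hγ
    rw [div_slash_SL2, (hf.toIsMF.pow N).slash γ hγ, disc_slash]
  · intro γ
    rw [div_slash_SL2, slash_pow, disc_slash, IsBoundedAtImInfty, BoundedAtFilter]
    refine (div_isBoundedUnder_of_isBigO ?_).isBigO_one ℝ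
    have h1 := (hf.zero_cusp γ).exp_decay_atImInfty hN0
      (hf.toIsMF.periodic_slash γ (conj_T_pow_mem N γ)) (hf.toIsMF.holo_slash γ) (hf.bdd γ)
    have h2 := h1.pow N
    refine IsBigO.trans h2 ?_
    refine IsBigO.trans (IsBigO.of_bound 1 (Eventually.of_forall fun τ => ?_))
      ModularForm.exp_isBigO_discriminant
    rw [one_mul, ← Real.exp_nat_mul]
    apply le_of_eq
    congr 2
    field_simp
  · funext z
    simp only [Pi.pow_apply, Pi.mul_apply, Pi.div_apply]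
    rw [mul_div_cancel₀ _ (ModularForm.discriminant_ne_zero z)]

theorem isCF_of_pow {N : ℕ} [NeZero N] (hf : IsMF (Gamma0 N) k f) {h : ℍ → ℂ}
    (hh : IsMF (Gamma0 N) (N * k - 12) h) (he : f ^ N = ModularForm.discriminant * h) :
    IsCF (Gamma0 N) k f := by
  refine ⟨hf, fun γ => ?_⟩
  have h1 : (f ∣[k] γ) ^ N = ModularForm.discriminant * (h ∣[N * k - 12] γ) := by
    rw [← slash_pow, he, show (N : ℤ) * k = 12 + (N * k - 12) by ring, mul_slash_SL2, disc_slash]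
    congr 2
    ring
  have h2 : IsZeroAtImInfty ((f ∣[k] γ) ^ N) := by
    rw [h1]
    have := ModularForm.discriminant_isZeroAtImInfty
    exact ZeroAtFilter.mul_boundedAtFilter this (hh.bdd γ)
  have h3 : Tendsto (fun z => ‖(f ∣[k] γ) z‖ ^ N) atImInfty (𝓝 0) := by
    have := (tendsto_zero_iff_norm_tendsto_zero.mp h2)
    refine this.congr fun z => ?_
    rw [Pi.pow_apply, norm_pow]
  have hN : N ≠ 0 := NeZero.ne N
  have h4 : Tendsto (fun z => ‖(f ∣[k] γ) z‖) atImInfty (𝓝 0) := by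
    have h5 : Tendsto (fun x : ℝ => x ^ ((N : ℝ)⁻¹)) (𝓝 0) (𝓝 0) := by
      have hN' : (N : ℝ)⁻¹ ≠ 0 := inv_ne_zero (by exact_mod_cast hN)
      have := (Real.continuous_rpow_const (q := (N : ℝ)⁻¹) (by positivity)).tendsto 0
      rwa [Real.zero_rpow hN'] at this
    refine (h5.comp h3).congr fun z => ?_
    simp only [Function.comp_apply]
    exact Real.pow_rpow_inv_natCast (norm_nonneg _) hN
  exact tendsto_zero_iff_norm_tendsto_zero.mpr h4

/-- Galois action on cusp forms for `Γ₀(N)`. -/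
theorem galois_cusp {N : ℕ} [NeZero N] (σ : ℂ →+* ℂ) (hf : IsCF (Gamma0 N) k f) :
    ∃ f' : ℍ → ℂ, IsCF (Gamma0 N) k f' ∧
      qExpansion 1 f' = PowerSeries.map σ (qExpansion 1 f) := by
  have hT := T_mem_Gamma0 N
  obtain ⟨f', hf', ef⟩ := galois_Gamma0 σ hf.toIsMF
  obtain ⟨h, hh, he⟩ := hf.exists_div_disc
  obtain ⟨h', hh', eh⟩ := galois_Gamma0 σ hh
  have hΔ : IsMF (Gamma0 N) 12 (ModularForm.discriminant : ℍ → ℂ) := disc_mf.mono le_top
  refine ⟨f', isCF_of_pow hf' hh' ?_, ef⟩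
  refine IsMF.eq_of_qExpansion (hf'.pow N) ((hΔ.mul hh').cast (by ring)) hT ?_
  rw [hf'.qExpansion_pow hT, hΔ.qExpansion_mul hh' hT, ef, eh, ← map_pow,
    ← hf.toIsMF.qExpansion_pow hT, he, hΔ.qExpansion_mul hh hT, map_mul, map_of_rat σ disc_rat]

end Fermat.Agent.IntStr
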