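import Fermat.Agent.IntStr.E4N

set_option autoImplicit false

noncomputable section

namespace Fermat.Agent.IntStr

open UpperHalfPlane ModularForm CongruenceSubgroup Matrix.SpecialLinearGroup Filter
open scoped MatrixGroups Manifold Topology

theorem E4_mf : IsMF ⊤ 4 (E₄ : ℍ → ℂ) := IsMF.of_modularForm_SL E₄
theorem E6_mf : IsMF ⊤ 6 (E₆ : ℍ → ℂ) := IsMF.of_modularForm_SL E₆

/-- Monomials in `E₄`, `E₆` of weight `k`. -/
def lvl1Set (k : ℤ) : Set (ℍ → ℂ) :=
  {g | ∃ a b : ℕ, 4 * (a : ℤ) + 6 * (b : ℤ) = k ∧ g = (E₄ : ℍ → ℂ) ^ a * (E₆ : ℍ → ℂ) ^ b}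

theorem lvl1Set_mf {k : ℤ} {g : ℍ → ℂ} (hg : g ∈ lvl1Set k) : IsMF ⊤ k g := by
  obtain ⟨a, b, hab, rfl⟩ := hg
  exact ((E4_mf.pow a).mul (E6_mf.pow b)).cast (by linarith)

theorem discriminant_mul_mem {k : ℤ} {h : ℍ → ℂ} (hh : h ∈ Submodule.span ℂ (lvl1Set (k - 12))) :
    ModularForm.discriminant * h ∈ Submodule.span ℂ (lvl1Set k) := by
  induction hh using Submodule.span_induction with
  | mem x hx =>
    obtain ⟨a, b, hab, rfl⟩ := hx
    have h1 : ModularForm.discriminant * ((E₄ : ℍ → ℂ) ^ a * (E₆ : ℍ → ℂ) ^ b) =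
        (1 / 1728 : ℂ) • ((E₄ : ℍ → ℂ) ^ (a + 3) * (E₆ : ℍ → ℂ) ^ b) +
        (-1 / 1728 : ℂ) • ((E₄ : ℍ → ℂ) ^ a * (E₆ : ℍ → ℂ) ^ (b + 2)) := by
      funext z
      simp only [Pi.mul_apply, Pi.pow_apply, Pi.add_apply, Pi.smul_apply, smul_eq_mul]
      rw [ModularForm.discriminant_eq_E₄_cube_sub_E₆_sq]
      ring
    rw [h1]
    refine Submodule.add_mem _ (Submodule.smul_mem _ _ (Submodule.subset_span ?_))
      (Submodule.smul_mem _ _ (Submodule.subset_span ?_))
    · exact ⟨a + 3, b, by push_cast; linarith, rfl⟩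
    · exact ⟨a, b + 2, by push_cast; linarith, rfl⟩
  | zero => rw [mul_zero]; exact Submodule.zero_mem _
  | add x y _ _ hx hy => rw [mul_add]; exact Submodule.add_mem _ hx hy
  | smul c x _ hx => rw [mul_smul_comm]; exact Submodule.smul_mem _ _ hx

theorem lvl1_span (n : ℕ) : ∀ (k : ℤ) (f : ℍ → ℂ), k.toNat = n → IsMF ⊤ k f →
    f ∈ Submodule.span ℂ (lvl1Set k) := by
  induction n using Nat.strong_induction_on with
  | _ n ih =>
    intro k f hkn hf
    rcases lt_trichotomy k 0 with hk | hk | hk
    · have h0 : (hf.toModularFormSL : ℍ → ℂ) = 0 :=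
        ModularFormClass.levelOne_neg_weight_eq_zero hk hf.toModularFormSL
      rw [hf.coe_toModularFormSL] at h0
      rw [h0]
      exact Submodule.zero_mem _
    · subst hk
      obtain ⟨c, hc⟩ := ModularFormClass.levelOne_weight_zero_const hf.toModularFormSL
      rw [hf.coe_toModularFormSL] at hc
      have : f = c • ((E₄ : ℍ → ℂ) ^ 0 * (E₆ : ℍ → ℂ) ^ 0) := by
        rw [hc]
        funext z
        simp
      rw [this]
      exact Submodule.smul_mem _ _ (Submodule.subset_span ⟨0, 0, by simp, rfl⟩)
    · rcases Int.even_or_odd k with he | ho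
      swap
      · have h0 := ModularForm.levelOne_odd_weight_eq_zero ho hf.toModularFormSL
        have h1 : f = 0 := by
          rw [← hf.coe_toModularFormSL, h0]
          rfl
        rw [h1]
        exact Submodule.zero_mem _
      · by_cases hk2 : k = 2
        · subst hk2
          have h0 := rank_zero_iff_forall_zero.mp ModularForm.levelOne_weight_two_rank_zero
            hf.toModularFormSL
          have h1 : f = 0 := by
            rw [← hf.coe_toModularFormSL, h0]
            rfl
          rw [h1]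
          exact Submodule.zero_mem _
        · obtain ⟨m, hm⟩ := he
          have hab : ∃ a b : ℕ, 4 * (a : ℤ) + 6 * (b : ℤ) = k := by
            rcases Int.even_or_odd m with ⟨r, hr⟩ | ⟨r, hr⟩
            · refine ⟨r.toNat, 0, ?_⟩
              omega
            · refine ⟨(r - 1).toNat, 1, ?_⟩
              omega
          obtain ⟨a, b, hab⟩ := hab
          set E : ℍ → ℂ := (E₄ : ℍ → ℂ) ^ a * (E₆ : ℍ → ℂ) ^ b with hE
          have hEs : E ∈ lvl1Set k := ⟨a, b, hab, rfl⟩
          have hEm : IsMF ⊤ k E := lvl1Set_mf hEs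
          have hT : ModularGroup.T ∈ (⊤ : Subgroup SL(2, ℤ)) := Subgroup.mem_top _
          have hE0 : (qExpansion 1 (hEm.toModularFormSL : ℍ → ℂ)).coeff 0 = 1 := by
            rw [hEm.coe_toModularFormSL, hE, (E4_mf.pow a).qExpansion_mul (E6_mf.pow b) hT,
              E4_mf.qExpansion_pow hT, E6_mf.qExpansion_pow hT]
            have h4 := EisensteinSeries.E_qExpansion_coeff_zero (k := 4) (by norm_num) (by decide)
            have h6 := EisensteinSeries.E_qExpansion_coeff_zero (k := 6) (by norm_num) (by decide)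
            rw [PowerSeries.coeff_zero_eq_constantCoeff] at h4 h6 ⊢
            rw [map_mul, map_pow, map_pow, h4, h6]
            simp
          obtain ⟨g, hg⟩ := ModularForm.sub_smul_isCuspForm hf.toModularFormSL
            hEm.toModularFormSL hE0
          set c := (qExpansion 1 (hf.toModularFormSL : ℍ → ℂ)).coeff 0
          have hfg : f = c • E + ModularForm.discriminant * (CuspForm.discriminantEquiv g) := by
            rw [ModularForm.discriminant_mul_discriminantEquiv]
            have h3 : (g : ℍ → ℂ) = f - c • E := by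
              have := congrArg (fun F : ModularForm 𝒮ℒ k => (F : ℍ → ℂ)) hg
              exact this
            rw [h3]
            ring
          rw [hfg]
          refine Submodule.add_mem _ (Submodule.smul_mem _ _ (Submodule.subset_span hEs)) ?_
          apply discriminant_mul_mem
          have hd : IsMF ⊤ (k - 12) (CuspForm.discriminantEquiv g) :=
            IsMF.of_modularForm_SL _
          by_cases hk12 : k < 12
          · have h0 : ((CuspForm.discriminantEquiv g : ModularForm 𝒮ℒ (k - 12)) : ℍ → ℂ) = 0 :=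
              ModularFormClass.levelOne_neg_weight_eq_zero (by linarith)
                (CuspForm.discriminantEquiv g)
            rw [h0]
            exact Submodule.zero_mem _
          · exact ih (k - 12).toNat (by omega) (k - 12) _ rfl hd

theorem lvl1_mem_span {k : ℤ} {f : ℍ → ℂ} (hf : IsMF ⊤ k f) :
    f ∈ Submodule.span ℂ (lvl1Set k) := lvl1_span k.toNat k f rfl hf

end Fermat.Agent.IntStr
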