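import Fermat.Agent.IntStr.Cusp
import Fermat.Prelude.Def_CuspForm_IntegralStructure
import Fermat.Prelude.Thm_ModularForm_sturm_bound_Gamma0

set_option autoImplicit false

noncomputable section

namespace Fermat.Agent.IntStr

open UpperHalfPlane ModularForm CongruenceSubgroup Matrix.SpecialLinearGroup Filter Asymptotics
open scoped MatrixGroups Manifold Topology

variable {N : ℕ} [NeZero N] {k : ℤ} {f g : ℍ → ℂ}

omit [NeZero N] in
theorem term_mem_span {c : ℍ → ℂ} (hc : IsMF ⊤ k c) (G : PowerSeries ℂ) {n j : ℕ} (hj : j < n) :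
    qExpansion 1 c * G ^ j ∈
      Submodule.span ℂ (monoSet (qExpansion 1 (E₄ : ℍ → ℂ)) (qExpansion 1 (E₆ : ℍ → ℂ)) G n) := by
  have hspan := lvl1_mem_span hc
  clear hc
  induction hspan using Submodule.span_induction with
  | mem x hx =>
    obtain ⟨a, b, -, rfl⟩ := hx
    refine Submodule.subset_span ⟨a, b, j, hj, ?_⟩
    rw [qExpansion_mono]
  | zero => rw [qExpansion_zero, zero_mul]; exact zero_mem _
  | add x y hx hy ihx ihy =>
    rw [IsMF.qExpansion_add (span_lvl1_le k hx) (span_lvl1_le k hy) T_mem_top, add_mul]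
    exact add_mem ihx ihy
  | smul c x hx ihx =>
    rw [IsMF.qExpansion_smul (span_lvl1_le k hx) T_mem_top, smul_mul_assoc]
    exact Submodule.smul_mem _ _ ihx

/-- A modular form for `Γ₀(N)` with rational `q`-expansion at `∞` has bounded denominators. -/
theorem bd_of_rat (hf : IsMF (Gamma0 N) k f) (hr : IsRat (qExpansion 1 f)) :
    qExpansion 1 f ∈ bdAlg := by
  have hT := T_mem_Gamma0 N
  have hg := E4N_mf N
  obtain ⟨n, w, D, hD0, hD, hrel⟩ := exists_relation hg (E4N_inj N)
  have hqD : qExpansion 1 D ≠ 0 := fun h => hD0 (hD.eq_zero_of_qExpansion T_mem_top h)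
  have hDΓ : IsMF (Gamma0 N) w D := hD.mono le_top
  refine bd_of_relation (mem_intSub_of_isInt E4_int) (mem_intSub_of_isInt E6_int)
    (mem_intSub_of_isInt (E4N_int N)) hr hqD (n := n) ?_
  intro m
  obtain ⟨c, hc, hcf⟩ := hrel _ _ (hf.pow m)
  have hterm : ∀ j : Fin n, IsMF (Gamma0 N) (w + m * k) (c j * E4N N ^ (j : ℕ)) := fun j =>
    (((hc j).mono le_top).mul (hg.pow (j : ℕ))).cast (by ring)
  rw [← hf.qExpansion_pow hT, ← hDΓ.qExpansion_mul (hf.pow m) hT, hcf,
    qExpansion_sum _ _ (fun j _ => hterm j) hT]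
  refine Submodule.sum_mem _ fun j _ => ?_
  rw [((hc j).mono le_top : IsMF (Gamma0 N) _ _).qExpansion_mul (hg.pow (j : ℕ)) hT,
    hg.qExpansion_pow hT]
  exact term_mem_span (hc j) _ j.2

variable (N k) in
/-- The `q`-expansion map on cusp forms as a linear map. -/
def qLin : CuspForm (Gamma0 N) k →ₗ[ℂ] PowerSeries ℂ where
  toFun F := qExpansion 1 (F : ℍ → ℂ)
  map_add' F F' := by
    have hT := T_mem_Gamma0 N
    exact (IsCF.of_cuspForm F).toIsMF.qExpansion_add (IsCF.of_cuspForm F').toIsMF hT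
  map_smul' c F := by
    have hT := T_mem_Gamma0 N
    exact (IsCF.of_cuspForm F).toIsMF.qExpansion_smul hT c

theorem qLin_apply (F : CuspForm (Gamma0 N) k) : qLin N k F = qExpansion 1 (F : ℍ → ℂ) := rfl

theorem qLin_eq_zero {F : CuspForm (Gamma0 N) k}
    (h : ∀ i < (k * (Gamma0 N).index).toNat / 12 + 1, PowerSeries.coeff i (qLin N k F) = 0) :
    F = 0 := by
  have h1 := ModularForm.sturm_bound_Gamma0 N (IsCF.of_cuspForm F).toIsMF.toModularForm
    (fun n hn => h n (Nat.lt_succ_of_le hn))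
  apply DFunLike.coe_injective
  have := congrArg (fun F : ModularForm (Gamma0 N) k => (F : ℍ → ℂ)) h1
  exact this

theorem qLin_injective : Function.Injective (qLin N k) := by
  rw [injective_iff_map_eq_zero]
  intro F hF
  exact qLin_eq_zero fun i _ => by rw [hF, map_zero]

theorem hasIntegralStructure (N : ℕ) [NeZero N] (k : ℤ) : CuspForm.HasIntegralStructure N k := by
  have hdesc := descent (LinearMap.range (qLin N k))
    (by
      rintro σ v ⟨F, rfl⟩
      obtain ⟨f', hf', ef⟩ := galois_cusp (σ : ℂ →+* ℂ) (IsCF.of_cuspForm F)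
      exact ⟨hf'.toCuspForm, by rw [qLin_apply, IsCF.coe_toCuspForm, ef, qLin_apply]⟩)
    ((k * (Gamma0 N).index).toNat / 12 + 1)
    (by
      rintro v ⟨F, rfl⟩ h
      rw [qLin_eq_zero h, map_zero])
  rw [CuspForm.HasIntegralStructure, eq_top_iff]
  intro F _
  have hF := hdesc ⟨F, rfl⟩
  have key : ∀ v ∈ Submodule.span ℂ {v | v ∈ LinearMap.range (qLin N k) ∧ IsRat v},
      ∃ F' ∈ Submodule.span ℂ ((CuspForm.intLattice N k : Submodule ℤ (CuspForm (Gamma0 N) k)) :
        Set (CuspForm (Gamma0 N) k)), qLin N k F' = v := by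
    intro v hv
    induction hv using Submodule.span_induction with
    | mem v hv =>
      obtain ⟨⟨F', rfl⟩, hr⟩ := hv
      obtain ⟨m, hm, hmF⟩ := mem_bdAlg.mp (bd_of_rat (IsCF.of_cuspForm F').toIsMF hr)
      refine ⟨F', ?_, rfl⟩
      have hmc : (m : ℂ) ≠ 0 := by exact_mod_cast hm
      have h1 : F' = (m : ℂ)⁻¹ • ((m : ℂ) • F') := by
        rw [smul_smul, inv_mul_cancel₀ hmc, one_smul]
      rw [h1]
      refine Submodule.smul_mem _ _ (Submodule.subset_span (Submodule.subset_span ?_))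
      intro n
      obtain ⟨a, ha⟩ := mem_intSub.mp hmF n
      refine ⟨a, ?_⟩
      rw [← ha]
      change PowerSeries.coeff n (qLin N k ((m : ℂ) • F')) = _
      rw [map_smul, qLin_apply, PowerSeries.smul_eq_C_mul]
      congr 1
    | zero => exact ⟨0, zero_mem _, map_zero _⟩
    | add x y _ _ hx hy =>
      obtain ⟨X, hX, rfl⟩ := hx
      obtain ⟨Y, hY, rfl⟩ := hy
      exact ⟨X + Y, add_mem hX hY, map_add _ _ _⟩
    | smul c x _ hx =>
      obtain ⟨X, hX, rfl⟩ := hx
      exact ⟨c • X, Submodule.smul_mem _ _ hX, map_smul _ _ _⟩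
  obtain ⟨F', hF', e⟩ := key _ hF
  rw [← qLin_injective e]
  exact hF'

end Fermat.Agent.IntStr
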