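import Mathlib

set_option autoImplicit false

noncomputable section

namespace Fermat.Agent.IntStr

open Cardinal Polynomial

theorem exists_ringEquiv_aux {R K L : Type} [CommRing R] [IsDomain R] [Field K] [Field L]
    [Algebra R K] [Algebra R L] [IsAlgClosed K] [IsAlgClosed L] [FaithfulSMul R K]
    [FaithfulSMul R L] (hR : #R ≤ ℵ₀) (hK : ℵ₀ < #K) (hKL : #K = #L) :
    ∃ σ : K ≃+* L, ∀ r : R, σ (algebraMap R K r) = algebraMap R L r := by
  obtain ⟨s, hs⟩ := exists_isTranscendenceBasis R K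
  obtain ⟨t, ht⟩ := exists_isTranscendenceBasis R L
  have h1 : #K = #s :=
    IsAlgClosed.cardinal_eq_cardinal_transcendence_basis_of_aleph0_lt' _ hs hR hK
  have h2 : #L = #t :=
    IsAlgClosed.cardinal_eq_cardinal_transcendence_basis_of_aleph0_lt' _ ht hR (hKL ▸ hK)
  obtain ⟨e⟩ := Cardinal.eq.mp (h1.symm.trans (hKL.trans h2))
  let := IsAlgClosed.isAlgClosure_of_transcendence_basis _ hs
  let := IsAlgClosed.isAlgClosure_of_transcendence_basis _ ht
  let e' : Algebra.adjoin R (Set.range ((↑) : s → K)) ≃ₐ[R]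
      Algebra.adjoin R (Set.range ((↑) : t → L)) :=
    hs.1.aevalEquiv.symm.trans ((MvPolynomial.renameEquiv R e).trans ht.1.aevalEquiv)
  refine ⟨IsAlgClosure.equivOfEquiv K L e'.toRingEquiv, fun r => ?_⟩
  have h3 := IsAlgClosure.equivOfEquiv_algebraMap K L e'.toRingEquiv (algebraMap R _ r)
  have h4 : e'.toRingEquiv (algebraMap R _ r) = algebraMap R _ r := e'.commutes r
  rw [h4] at h3
  exact h3

theorem exists_ringEquiv_of_injective {R : Type} [CommRing R] [IsDomain R] (hR : #R ≤ ℵ₀)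
    (i j : R →+* ℂ) (hi : Function.Injective i) (hj : Function.Injective j) :
    ∃ σ : ℂ ≃+* ℂ, ∀ r : R, σ (i r) = j r := by
  have h1 : @FaithfulSMul R ℂ i.toAlgebra.toSMul := by
    let := i.toAlgebra
    exact (faithfulSMul_iff_algebraMap_injective R ℂ).mpr hi
  have h2 : @FaithfulSMul R ℂ j.toAlgebra.toSMul := by
    let := j.toAlgebra
    exact (faithfulSMul_iff_algebraMap_injective R ℂ).mpr hj
  exact @exists_ringEquiv_aux R ℂ ℂ _ _ _ _ i.toAlgebra j.toAlgebra _ _ h1 h2 hR
    (by rw [Cardinal.mk_complex]; exact Cardinal.aleph0_lt_continuum) rfl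

theorem mk_ratPoly : #(ℚ[X]) ≤ ℵ₀ :=
  Polynomial.cardinalMk_le_max.trans (by simp)

/-- An automorphism of `ℂ` moving a given irrational number. -/
theorem exists_ringEquiv_ne {z : ℂ} (hz : z ∉ Set.range (algebraMap ℚ ℂ)) :
    ∃ σ : ℂ ≃+* ℂ, σ z ≠ z := by
  by_cases halg : IsAlgebraic ℚ z
  · have hint : IsIntegral ℚ z := halg.isIntegral
    set p := minpoly ℚ z with hp
    have hirr : Irreducible p := minpoly.irreducible hint
    have := Fact.mk hirr
    have hdeg : p.natDegree ≠ 1 := by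
      intro h
      apply hz
      exact minpoly.natDegree_eq_one_iff.mp h
    -- another root
    have hsep : p.Separable := hirr.separable
    have hcard : Fintype.card (p.rootSet ℂ) = p.natDegree :=
      card_rootSet_eq_natDegree hsep (IsAlgClosed.splits _)
    have hpos : 0 < p.natDegree := hirr.natDegree_pos
    have hz' : z ∈ p.rootSet ℂ := by
      rw [mem_rootSet]
      exact ⟨hirr.ne_zero, minpoly.aeval ℚ z⟩
    obtain ⟨w, hw⟩ : ∃ w : p.rootSet ℂ, w ≠ ⟨z, hz'⟩ := by
      have : 1 < Fintype.card (p.rootSet ℂ) := by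
        rw [hcard]; omega
      exact Fintype.exists_ne_of_one_lt_card this _
    have hwroot := (mem_rootSet.mp w.2).2
    have hR : #(AdjoinRoot p) ≤ ℵ₀ :=
      (Cardinal.mk_le_of_surjective (AdjoinRoot.mk_surjective (g := p))).trans mk_ratPoly
    let i : AdjoinRoot p →+* ℂ := AdjoinRoot.lift (algebraMap ℚ ℂ) z (by
      rw [← Polynomial.aeval_def]; exact minpoly.aeval ℚ z)
    let j : AdjoinRoot p →+* ℂ := AdjoinRoot.lift (algebraMap ℚ ℂ) (w : ℂ) (by
      rw [← Polynomial.aeval_def]; exact hwroot)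
    obtain ⟨σ, hσ⟩ := exists_ringEquiv_of_injective hR i j i.injective j.injective
    refine ⟨σ, ?_⟩
    have h1 := hσ (AdjoinRoot.root p)
    simp only [i, j, AdjoinRoot.lift_root] at h1
    rw [h1]
    intro h2
    exact hw (Subtype.ext h2)
  · have htr : Transcendental ℚ z := halg
    have htr' : Transcendental ℚ (z + 1) := by
      intro h
      apply htr
      have := h.sub (isAlgebraic_one (R := ℚ) (A := ℂ))
      simpa using this
    obtain ⟨σ, hσ⟩ := exists_ringEquiv_of_injective mk_ratPoly (aeval z : ℚ[X] →ₐ[ℚ] ℂ).toRingHom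
      (aeval (z + 1) : ℚ[X] →ₐ[ℚ] ℂ).toRingHom
      (transcendental_iff_injective.mp htr) (transcendental_iff_injective.mp htr')
    refine ⟨σ, ?_⟩
    have h1 := hσ X
    simp at h1
    rw [h1]
    intro h
    simp at h

end Fermat.Agent.IntStr
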