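import Fermat.Agent.IntStr.Basic

set_option autoImplicit false

noncomputable section

namespace Fermat.Agent.IntStr

open UpperHalfPlane ModularForm CongruenceSubgroup Matrix.SpecialLinearGroup Filter
open scoped MatrixGroups Manifold

variable {G : Subgroup SL(2, ℤ)} {k l κ : ℤ} {f g : ℍ → ℂ}

/-- coset translate of a `G`-invariant function. -/
def tr (G : Subgroup SL(2, ℤ)) (k : ℤ) (f : ℍ → ℂ) (q : SL(2, ℤ) ⧸ G) : ℍ → ℂ :=
  f ∣[k] (q.out)⁻¹

theorem tr_mk (hf : ∀ γ ∈ G, f ∣[k] γ = f) (h : SL(2, ℤ)) :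
    tr G k f (h : SL(2, ℤ) ⧸ G) = f ∣[k] h⁻¹ := by
  obtain ⟨n, hn⟩ := QuotientGroup.mk_out_eq_mul G h
  rw [tr, hn, mul_inv_rev, SlashAction.slash_mul, hf _ (G.inv_mem n.2)]

theorem tr_slash (hf : ∀ γ ∈ G, f ∣[k] γ = f) (γ : SL(2, ℤ)) (q : SL(2, ℤ) ⧸ G) :
    (tr G k f q) ∣[k] γ = tr G k f (γ⁻¹ • q) := by
  induction q using QuotientGroup.induction_on with
  | H h =>
    rw [tr_mk hf, ← SlashAction.slash_mul]
    change _ = tr G k f ((γ⁻¹ * h : SL(2, ℤ)) : SL(2, ℤ) ⧸ G)
    rw [tr_mk hf]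
    congr 1
    group

theorem tr_one (hf : ∀ γ ∈ G, f ∣[k] γ = f) :
    tr G k f ((1 : SL(2, ℤ)) : SL(2, ℤ) ⧸ G) = f := by
  rw [tr_mk hf, inv_one, SlashAction.slash_one]

theorem tr_mul (q : SL(2, ℤ) ⧸ G) :
    tr G (k + l) (f * g) q = tr G k f q * tr G l g q :=
  mul_slash_SL2 _ _ _ _ _

theorem tr_pow (n : ℕ) (q : SL(2, ℤ) ⧸ G) :
    tr G (n * k) (f ^ n) q = (tr G k f q) ^ n := by
  induction n with
  | zero =>
    simp only [Nat.cast_zero, zero_mul, pow_zero]
    exact is_invariant_one _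
  | succ n ih =>
    rw [pow_succ, pow_succ, ← ih, ← tr_mul]
    congr 1
    push_cast
    ring

theorem tr_holo (hf : IsMF G k f) (q : SL(2, ℤ) ⧸ G) : MDiff (tr G k f q) :=
  hf.holo_slash _

variable [G.FiniteIndex]

local instance : Fintype (SL(2, ℤ) ⧸ G) := Subgroup.fintypeQuotientOfFiniteIndex

/-- The trace to level one. -/
theorem isMF_trace (hf : IsMF G k f) : IsMF ⊤ k (∑ q : SL(2, ℤ) ⧸ G, tr G k f q) where
  holo := .sum fun q _ => tr_holo hf q
  slash γ _ := by
    rw [SlashAction.sum_slash]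
    simp_rw [tr_slash hf.slash γ]
    exact Equiv.sum_comp (MulAction.toPerm (γ⁻¹)) (fun q : SL(2, ℤ) ⧸ G => tr G k f q)
  bdd γ := by
    rw [SlashAction.sum_slash, IsBoundedAtImInfty, BoundedAtFilter, Finset.sum_fn]
    refine Asymptotics.IsBigO.fun_sum fun q _ => ?_
    rw [tr_slash hf.slash γ]
    exact hf.bdd _

theorem isMF_det {n : ℕ} (A : Matrix (Fin n) (Fin n) (ℍ → ℂ)) (a b : Fin n → ℤ)
    (hA : ∀ i j, IsMF ⊤ (a i + b j) (A i j)) : IsMF ⊤ (∑ i, a i + ∑ i, b i) A.det := by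
  rw [Matrix.det_apply]
  refine (MF ⊤ _).sum_mem fun σ _ => ?_
  have h1 : (∏ i, A (σ i) i) ∈ MF ⊤ (∑ i, (a (σ i) + b i)) :=
    SetLike.prod_mem_graded (MF ⊤) (fun i => a (σ i) + b i) (fun i => A (σ i) i)
      fun i _ => hA (σ i) i
  have h2 : ∑ i, (a (σ i) + b i) = ∑ i, a i + ∑ i, b i := by
    rw [Finset.sum_add_distrib, Equiv.sum_comp σ a]
  rw [h2] at h1
  rcases Int.units_eq_one_or (Equiv.Perm.sign σ) with h | h
  · rw [h, one_smul]
    exact h1
  · rw [h, Units.neg_smul, one_smul]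
    exact (MF ⊤ _).neg_mem h1

/-- The key relation: expressing a multiple of every modular form for `G` in terms of powers of
a single one with distinct conjugates, with level one coefficients. -/
theorem exists_relation (hg : IsMF G κ g) (hinj : ∀ γ : SL(2, ℤ), g ∣[κ] γ = g → γ ∈ G) :
    ∃ (n : ℕ) (w : ℤ) (D : ℍ → ℂ), D ≠ 0 ∧ IsMF ⊤ w D ∧
      ∀ (k : ℤ) (f : ℍ → ℂ), IsMF G k f → ∃ c : Fin n → ℍ → ℂ,
        (∀ j : Fin n, IsMF ⊤ (w + k - κ * ((j : ℕ) : ℤ)) (c j)) ∧ D * f = ∑ j, c j * g ^ (j : ℕ) := by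
  classical
  set n := Fintype.card (SL(2, ℤ) ⧸ G) with hn
  let e : Fin n ≃ SL(2, ℤ) ⧸ G := (Fintype.equivFin _).symm
  let v : Fin n → ℍ → ℂ := fun i => tr G κ g (e i)
  let V : Matrix (Fin n) (Fin n) (ℍ → ℂ) := Matrix.vandermonde v
  let T : Matrix (Fin n) (Fin n) (ℍ → ℂ) := V.transpose * V
  let w : ℤ := ∑ i : Fin n, (κ * ((i : ℕ) : ℤ) + κ * ((i : ℕ) : ℤ))
  -- entries of T
  have hT : ∀ i j : Fin n, IsMF ⊤ (κ * ((i : ℕ) : ℤ) + κ * ((j : ℕ) : ℤ)) (T i j) := by
    intro i j
    have h1 : T i j = ∑ q : SL(2, ℤ) ⧸ G, tr G ((i : ℕ) * κ + (j : ℕ) * κ)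
        (g ^ (i : ℕ) * g ^ (j : ℕ)) q := by
      simp only [T, Matrix.mul_apply, Matrix.transpose_apply, V, Matrix.vandermonde_apply]
      rw [← Equiv.sum_comp e]
      refine Finset.sum_congr rfl fun l _ => ?_
      rw [tr_mul, tr_pow, tr_pow]
    rw [h1]
    exact (isMF_trace ((hg.pow i).mul (hg.pow j))).cast (by ring)
  -- the determinant of V is nonzero
  have hv : Function.Injective v := by
    intro i j hij
    simp only [v, tr] at hij
    have h1 : g ∣[κ] ((e i).out⁻¹ * (e j).out) = g := by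
      rw [SlashAction.slash_mul, hij, ← SlashAction.slash_mul, inv_mul_cancel,
        SlashAction.slash_one]
    have h2 := hinj _ h1
    have h3 : ((e i).out : SL(2, ℤ) ⧸ G) = ((e j).out : SL(2, ℤ) ⧸ G) :=
      QuotientGroup.eq.mpr h2
    rw [QuotientGroup.out_eq', QuotientGroup.out_eq'] at h3
    exact e.injective h3
  have hvh : ∀ i, MDiff (v i) := fun i => tr_holo hg _
  have hV : V.det ≠ 0 := by
    rw [Matrix.det_vandermonde]
    intro h0
    rw [UpperHalfPlane.prod_eq_zero_iff] at h0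
    · obtain ⟨i, _, hi⟩ := h0
      rw [UpperHalfPlane.prod_eq_zero_iff] at hi
      · obtain ⟨j, hj, hij⟩ := hi
        have := hv (sub_eq_zero.mp hij)
        rw [Finset.mem_Ioi] at hj
        exact absurd this hj.ne'
      · exact fun j _ => (hvh j).sub (hvh i)
    · refine fun i _ => ?_
      exact MDifferentiable.prod fun j _ => (hvh j).sub (hvh i)
  have hVh : MDiff (V.det) := by
    rw [Matrix.det_vandermonde]
    exact MDifferentiable.prod fun i _ => MDifferentiable.prod fun j _ => (hvh j).sub (hvh i)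
  have hD : T.det ≠ 0 := by
    rw [Matrix.det_mul, Matrix.det_transpose]
    intro h0
    rcases mul_eq_zero_of_holo hVh hVh h0 with h | h <;> exact hV h
  refine ⟨n, w, T.det, hD, ?_, ?_⟩
  · have := isMF_det T (fun i => κ * ((i : ℕ) : ℤ)) (fun i => κ * ((i : ℕ) : ℤ)) hT
    exact this.cast (by simp only [w, Finset.sum_add_distrib])
  · intro k f hf
    let F : Fin n → ℍ → ℂ := fun i => tr G k f (e i)
    let t : Fin n → ℍ → ℂ := V.transpose.mulVec F
    have ht : ∀ i : Fin n, IsMF ⊤ (κ * ((i : ℕ) : ℤ) + k) (t i) := by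
      intro i
      have h1 : t i = ∑ q : SL(2, ℤ) ⧸ G, tr G ((i : ℕ) * κ + k) (g ^ (i : ℕ) * f) q := by
        simp only [t, Matrix.mulVec, dotProduct, Matrix.transpose_apply, V,
          Matrix.vandermonde_apply]
        rw [← Equiv.sum_comp e]
        refine Finset.sum_congr rfl fun l _ => ?_
        rw [tr_mul, tr_pow]
      rw [h1]
      exact (isMF_trace ((hg.pow i).mul hf)).cast (by ring)
    refine ⟨T.cramer t, ?_, ?_⟩
    · intro j
      rw [Matrix.cramer_apply]
      have := isMF_det (T.updateCol j t) (fun i => κ * ((i : ℕ) : ℤ))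
        (fun i => if i = j then k else κ * ((i : ℕ) : ℤ)) ?_
      · refine this.cast ?_
        simp only [w, Finset.sum_add_distrib]
        have h2 : ∑ i : Fin n, (if i = j then k else κ * ((i : ℕ) : ℤ)) =
            ∑ i : Fin n, κ * ((i : ℕ) : ℤ) + (k - κ * ((j : ℕ) : ℤ)) := by
          rw [← Finset.sum_erase_add _ _ (Finset.mem_univ j),
            ← Finset.sum_erase_add _ (fun i : Fin n => κ * ((i : ℕ) : ℤ)) (Finset.mem_univ j)]
          rw [if_pos rfl]
          have h3 : ∑ i ∈ Finset.univ.erase j, (if i = j then k else κ * ((i : ℕ) : ℤ)) =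
              ∑ i ∈ Finset.univ.erase j, κ * ((i : ℕ) : ℤ) :=
            Finset.sum_congr rfl fun i hi => by rw [if_neg (Finset.ne_of_mem_erase hi)]
          rw [h3]
          ring
        rw [h2]
        ring
      · intro i l
        by_cases hl : l = j
        · subst hl
          rw [Matrix.updateCol_self, if_pos rfl]
          exact ht i
        · rw [Matrix.updateCol_ne hl, if_neg hl]
          exact hT i l
    · have h1 : V.mulVec (T.cramer t) = T.det • F := by
        rw [Matrix.cramer_eq_adjugate_mulVec]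
        simp only [T, t]
        have h3 : V * (V.adjugate * V.transpose.adjugate) * V.transpose =
            (V.transpose * V).det • (1 : Matrix (Fin n) (Fin n) (ℍ → ℂ)) := by
          rw [← Matrix.mul_assoc, Matrix.mul_adjugate, Matrix.smul_mul, Matrix.one_mul,
            Matrix.smul_mul, Matrix.adjugate_mul, smul_smul, Matrix.det_mul, mul_comm]
        rw [Matrix.adjugate_mul_distrib, Matrix.mulVec_mulVec, Matrix.mulVec_mulVec,
          h3, Matrix.smul_mulVec, Matrix.one_mulVec]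
      let i₀ : Fin n := e.symm ((1 : SL(2, ℤ)) : SL(2, ℤ) ⧸ G)
      have h2 := congrFun h1 i₀
      have hF : F i₀ = f := by
        simp only [F, i₀, Equiv.apply_symm_apply]
        exact tr_one hf.slash
      have hv0 : v i₀ = g := by
        simp only [v, i₀, Equiv.apply_symm_apply]
        exact tr_one hg.slash
      rw [Pi.smul_apply, hF, smul_eq_mul] at h2
      rw [← h2]
      simp only [Matrix.mulVec, dotProduct, V, Matrix.vandermonde_apply, hv0]
      exact Finset.sum_congr rfl fun _ _ => mul_comm _ _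

end Fermat.Agent.IntStr
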