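import Fermat.Agent.IntStr.PSeries

set_option autoImplicit false

noncomputable section

namespace Fermat.Agent.IntStr

open PowerSeries

/-- Power series with bounded denominators, as a `ℚ`-subalgebra. -/
def bdAlg : Subalgebra ℚ (PowerSeries ℂ) where
  carrier := {x | ∃ m : ℕ, m ≠ 0 ∧ (m : PowerSeries ℂ) * x ∈ intSub}
  mul_mem' := by
    rintro x y ⟨m, hm, hx⟩ ⟨n, hn, hy⟩
    refine ⟨m * n, mul_ne_zero hm hn, ?_⟩
    have : ((m * n : ℕ) : PowerSeries ℂ) * (x * y) =
        ((m : PowerSeries ℂ) * x) * ((n : PowerSeries ℂ) * y) := by push_cast; ring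
    rw [this]
    exact intSub.mul_mem hx hy
  add_mem' := by
    rintro x y ⟨m, hm, hx⟩ ⟨n, hn, hy⟩
    refine ⟨m * n, mul_ne_zero hm hn, ?_⟩
    have : ((m * n : ℕ) : PowerSeries ℂ) * (x + y) =
        (n : PowerSeries ℂ) * ((m : PowerSeries ℂ) * x) +
          (m : PowerSeries ℂ) * ((n : PowerSeries ℂ) * y) := by push_cast; ring
    rw [this]
    exact intSub.add_mem (intSub.mul_mem (natCast_mem _ _) hx)
      (intSub.mul_mem (natCast_mem _ _) hy)
  algebraMap_mem' := by
    intro r
    refine ⟨r.den, r.den_nz, ?_⟩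
    have h1 : (r.den : PowerSeries ℂ) * algebraMap ℚ (PowerSeries ℂ) r =
        (r.num : PowerSeries ℂ) := by
      have h2 : (r.den : PowerSeries ℂ) = algebraMap ℚ (PowerSeries ℂ) (r.den : ℚ) := by simp
      rw [h2, ← map_mul, Rat.den_mul_eq_num]
      simp
    rw [h1]
    exact intCast_mem _ _

theorem mem_bdAlg {x : PowerSeries ℂ} :
    x ∈ bdAlg ↔ ∃ m : ℕ, m ≠ 0 ∧ (m : PowerSeries ℂ) * x ∈ intSub := Iff.rfl

theorem natCast_ne_zero {m : ℕ} (hm : m ≠ 0) : (m : PowerSeries ℂ) ≠ 0 := by
  intro h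
  have := congrArg (constantCoeff (R := ℂ)) h
  simp only [map_natCast, map_zero] at this
  exact hm (by exact_mod_cast this)

theorem bd_of_int {x : PowerSeries ℂ} (hx : x ∈ intSub) : x ∈ bdAlg :=
  ⟨1, one_ne_zero, by simpa using hx⟩

theorem bd_finset {ι : Type*} (s : Finset ι) (x : ι → PowerSeries ℂ)
    (hx : ∀ i ∈ s, x i ∈ bdAlg) :
    ∃ m : ℕ, m ≠ 0 ∧ ∀ i ∈ s, (m : PowerSeries ℂ) * x i ∈ intSub := by
  classical
  induction s using Finset.induction_on with
  | empty => exact ⟨1, one_ne_zero, by simp⟩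
  | insert i s hi ih =>
    obtain ⟨m, hm, h⟩ := ih fun j hj => hx j (Finset.mem_insert_of_mem hj)
    obtain ⟨n, hn, h'⟩ := hx i (Finset.mem_insert_self i s)
    refine ⟨m * n, mul_ne_zero hm hn, ?_⟩
    intro j hj
    rcases Finset.mem_insert.mp hj with rfl | hj
    · have : ((m * n : ℕ) : PowerSeries ℂ) * x j =
          (m : PowerSeries ℂ) * ((n : PowerSeries ℂ) * x j) := by push_cast; ring
      rw [this]
      exact intSub.mul_mem (natCast_mem _ _) h'
    · have : ((m * n : ℕ) : PowerSeries ℂ) * x j =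
          (n : PowerSeries ℂ) * ((m : PowerSeries ℂ) * x j) := by push_cast; ring
      rw [this]
      exact intSub.mul_mem (natCast_mem _ _) (h j hj)

/-- If `f` is rational, integral over power series with bounded denominators, and has
a common denominator for its powers up to bounded denominators, then it has bounded
denominators. -/
theorem bd_of_integral {f C : PowerSeries ℂ} (hf : IsRat f) (hC : C ≠ 0)
    (P : Polynomial (PowerSeries ℂ)) (hP : P.Monic) (hPc : ∀ i, P.coeff i ∈ bdAlg)
    (hroot : P.eval f = 0) (hbd : ∀ m : ℕ, C * f ^ m ∈ bdAlg) : f ∈ bdAlg := by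
  obtain ⟨m, hm, hmP⟩ := bd_finset (Finset.range (P.natDegree + 1)) P.coeff fun i _ => hPc i
  set f' : PowerSeries ℂ := (m : PowerSeries ℂ) * f with hf'
  set Q := P.scaleRoots (m : PowerSeries ℂ) with hQ
  have hQm : Q.Monic := (Polynomial.monic_scaleRoots_iff _).mpr hP
  have hQroot : Q.eval f' = 0 := by
    have := Polynomial.scaleRoots_eval_mul P f (m : PowerSeries ℂ)
    rw [hroot, mul_zero] at this
    exact this
  have hQc : (↑Q.coeffs : Set (PowerSeries ℂ)) ⊆ intSub := by
    intro c hc
    rw [Finset.mem_coe, Polynomial.mem_coeffs_iff] at hc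
    obtain ⟨i, hi, rfl⟩ := hc
    have hi' : i ≤ P.natDegree := by
      rw [← Polynomial.natDegree_scaleRoots P (m : PowerSeries ℂ)]
      exact Polynomial.le_natDegree_of_mem_supp i hi
    rw [hQ, Polynomial.coeff_scaleRoots]
    rcases hi'.eq_or_lt with h | h
    · subst h
      rw [Nat.sub_self, pow_zero, mul_one, hP.coeff_natDegree]
      exact intSub.one_mem
    · obtain ⟨d, hd⟩ : ∃ d, P.natDegree - i = d + 1 := ⟨P.natDegree - i - 1, by omega⟩
      rw [hd, pow_succ]
      have : P.coeff i * ((m : PowerSeries ℂ) ^ d * (m : PowerSeries ℂ)) =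
          (m : PowerSeries ℂ) ^ d * ((m : PowerSeries ℂ) * P.coeff i) := by ring
      rw [this]
      exact intSub.mul_mem (intSub.pow_mem (natCast_mem _ _) _)
        (hmP i (Finset.mem_range.mpr (by omega)))
  have hint : IsIntegral intSub f' := by
    refine ⟨Q.toSubring intSub hQc, (Polynomial.monic_toSubring Q intSub hQc).mpr hQm, ?_⟩
    rw [← hQroot, ← Polynomial.eval_map]
    congr 1
    exact Polynomial.map_toSubring Q intSub hQc
  obtain ⟨s, hs⟩ := hint.fg_adjoin_singleton
  have hpow : ∀ n : ℕ, C * f' ^ n ∈ bdAlg := by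
    intro n
    rw [hf', mul_pow, mul_left_comm]
    exact bdAlg.mul_mem (bdAlg.pow_mem (natCast_mem _ _) _) (hbd n)
  have hadj : ∀ y ∈ Algebra.adjoin intSub {f'}, C * y ∈ bdAlg := by
    intro y hy
    rw [Algebra.adjoin_singleton_eq_range_aeval] at hy
    obtain ⟨p, rfl⟩ := hy
    simp only [AlgHom.toRingHom_eq_coe, RingHom.coe_coe]
    rw [Polynomial.aeval_eq_sum_range, Finset.mul_sum]
    refine bdAlg.sum_mem fun i _ => ?_
    rw [Subring.smul_def, smul_eq_mul, mul_left_comm]
    exact bdAlg.mul_mem (bd_of_int (p.coeff i).2) (hpow i)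
  obtain ⟨m', hm', hs'⟩ := bd_finset s (fun y => C * y) fun y hy => hadj y (by
    have : y ∈ Submodule.span intSub (s : Set (PowerSeries ℂ)) := Submodule.subset_span hy
    rw [hs] at this
    exact this)
  have hall : ∀ y ∈ Submodule.span intSub (s : Set (PowerSeries ℂ)),
      (m' : PowerSeries ℂ) * (C * y) ∈ intSub := by
    intro y hy
    induction hy using Submodule.span_induction with
    | mem x hx => exact hs' x hx
    | zero => simp
    | add x y _ _ hx hy => rw [mul_add, mul_add]; exact intSub.add_mem hx hy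
    | smul c x _ hx =>
      rw [Subring.smul_def, smul_eq_mul]
      have : (m' : PowerSeries ℂ) * (C * ((c : PowerSeries ℂ) * x)) =
          (c : PowerSeries ℂ) * ((m' : PowerSeries ℂ) * (C * x)) := by ring
      rw [this]
      exact intSub.mul_mem c.2 hx
  have hf'int : f' ∈ intSub := by
    refine mem_intSub_of_almost (C := (m' : PowerSeries ℂ) * C) ?_ ?_ ?_
    · intro n
      obtain ⟨r, hr⟩ := hf n
      refine ⟨(m : ℚ) * r, ?_⟩
      have : f' = (m : ℂ) • f := by
        rw [hf', PowerSeries.smul_eq_C_mul]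
        simp
      rw [this, coeff_smul, hr]
      push_cast
      rfl
    · exact mul_ne_zero (natCast_ne_zero hm') hC
    · intro n
      rw [mul_assoc]
      have hp : f' ^ n ∈ Algebra.adjoin intSub {f'} :=
        pow_mem (Algebra.subset_adjoin (Set.mem_singleton f')) n
      have hp' : f' ^ n ∈ Subalgebra.toSubmodule (Algebra.adjoin intSub {f'}) :=
        (Subalgebra.mem_toSubmodule _).mpr hp
      rw [← hs] at hp'
      exact hall _ hp'
  exact ⟨m, hm, hf'int⟩

end Fermat.Agent.IntStr
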