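import Fermat.Agent.IntStr.Basic

set_option autoImplicit false

noncomputable section

namespace Fermat.Agent.IntStr

open UpperHalfPlane ModularForm CongruenceSubgroup Matrix.SpecialLinearGroup Filter
open scoped MatrixGroups Manifold Topology

variable {G : Subgroup SL(2, ℤ)} {k l w : ℤ} {f g : ℍ → ℂ}

/-- Local division lemma. -/
theorem exists_local_quotient {a d : ℂ → ℂ} {b : ℕ → ℂ → ℂ} {z₀ : ℂ}
    (ha : AnalyticAt ℂ a z₀) (hd : AnalyticAt ℂ d z₀) (hb : ∀ n, AnalyticAt ℂ (b n) z₀)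
    (hd0 : ¬ ∀ᶠ z in 𝓝 z₀, d z = 0)
    (h : ∀ n, ∀ᶠ z in 𝓝 z₀, a z ^ (n + 1) = d z ^ n * b n z) :
    ∃ q : ℂ → ℂ, AnalyticAt ℂ q z₀ ∧ ∀ᶠ z in 𝓝 z₀, a z = d z * q z := by
  have hdt : analyticOrderAt d z₀ ≠ ⊤ := fun ht => hd0 (analyticOrderAt_eq_top.mp ht)
  obtain ⟨m, hm⟩ := ENat.ne_top_iff_exists.mp hdt
  have hle : (m : ℕ∞) ≤ analyticOrderAt a z₀ := by
    by_contra hlt
    rw [not_le] at hlt
    obtain ⟨l, hl⟩ := ENat.ne_top_iff_exists.mp hlt.ne_top
    rw [← hl] at hlt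
    have hlm : l < m := by exact_mod_cast hlt
    have h1 : analyticOrderAt (a ^ (m + 1)) z₀ = analyticOrderAt (d ^ m * b m) z₀ :=
      analyticOrderAt_congr (h m)
    rw [analyticOrderAt_pow ha, analyticOrderAt_mul (hd.pow m) (hb m), analyticOrderAt_pow hd,
      ← hl, ← hm] at h1
    have h2 : ((m * m : ℕ) : ℕ∞) ≤ (((m + 1) * l : ℕ) : ℕ∞) := by
      have h3 : (m • (m : ℕ∞)) ≤ (m + 1) • (l : ℕ∞) := by
        rw [h1]; exact le_self_add
      simpa [nsmul_eq_mul] using h3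
    have h4 : m * m ≤ (m + 1) * l := by exact_mod_cast h2
    have h5 : l + 1 ≤ m := hlm
    nlinarith
  obtain ⟨g, hg, hg0, hdg⟩ := (hd.analyticOrderAt_eq_natCast (n := m)).mp hm.symm
  obtain ⟨c, hc, hac⟩ := (natCast_le_analyticOrderAt ha (n := m)).mp hle
  refine ⟨fun z => c z / g z, hc.div hg hg0, ?_⟩
  have hg' : ∀ᶠ z in 𝓝 z₀, g z ≠ 0 := hg.continuousAt.eventually_ne hg0
  filter_upwards [hdg, hac, hg'] with z h1 h2 h3
  rw [h1, h2, smul_eq_mul, smul_eq_mul]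
  field_simp

theorem MDiff_analyticAt (hf : MDiff f) (τ : ℍ) : AnalyticAt ℂ (f ∘ ofComplex) (τ : ℂ) := by
  rw [mdifferentiable_iff] at hf
  exact hf.analyticOnNhd isOpen_upperHalfPlaneSet _ τ.2

theorem not_eventually_zero (hf : MDiff f) (hf0 : f ≠ 0) (τ : ℍ) :
    ¬ ∀ᶠ z in 𝓝 (τ : ℂ), (f ∘ ofComplex) z = 0 := by
  intro h
  apply hf0
  apply UpperHalfPlane.eq_zero_of_frequently hf (τ := τ)
  apply Eventually.frequently
  rw [eventually_nhdsWithin_iff]
  have h2 := (UpperHalfPlane.isOpenEmbedding_coe.continuous.tendsto τ).eventually h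
  filter_upwards [h2] with z hz _
  simpa using hz

/-- Global division on `ℍ`. -/
theorem exists_quotient {F D : ℍ → ℂ} {Fn : ℕ → ℍ → ℂ} (hF : MDiff F) (hD : MDiff D)
    (hFn : ∀ n, MDiff (Fn n)) (hD0 : D ≠ 0) (h : ∀ n, F ^ (n + 1) = D ^ n * Fn n) :
    ∃ H : ℍ → ℂ, MDiff H ∧ D * H = F := by
  have key : ∀ τ : ℍ, ∃ q : ℂ → ℂ, AnalyticAt ℂ q τ ∧
      ∀ᶠ z in 𝓝 (τ : ℂ), (F ∘ ofComplex) z = (D ∘ ofComplex) z * q z := by
    intro τ
    refine exists_local_quotient (b := fun n => Fn n ∘ ofComplex) (MDiff_analyticAt hF τ)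
      (MDiff_analyticAt hD τ) (fun n => MDiff_analyticAt (hFn n) τ) (not_eventually_zero hD hD0 τ)
      fun n => Eventually.of_forall fun z => ?_
    exact congrFun (h n) (ofComplex z)
  choose q hq hq2 using key
  let H : ℍ → ℂ := fun τ => q τ τ
  have hH : ∀ τ : ℍ, (H ∘ ofComplex) =ᶠ[𝓝 (τ : ℂ)] q τ := by
    intro τ
    have h1 : ∀ᶠ z in 𝓝[≠] (τ : ℂ), (D ∘ ofComplex) z ≠ 0 := by
      rcases (MDiff_analyticAt hD τ).eventually_eq_zero_or_eventually_ne_zero with h | h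
      · exact absurd h (not_eventually_zero hD hD0 τ)
      · exact h
    rw [eventually_nhdsWithin_iff] at h1
    have h2 : ∀ᶠ z in 𝓝 (τ : ℂ), z ∈ upperHalfPlaneSet := isOpen_upperHalfPlaneSet.mem_nhds τ.2
    filter_upwards [h1, h2, hq2 τ] with z hz1 hz2 hz3
    by_cases hz : z = τ
    · subst hz
      simp [H]
    · have hz4 := hz1 hz
      have e : ofComplex z = ⟨z, hz2⟩ := ofComplex_apply_of_im_pos hz2
      have h5 := (hq2 ⟨z, hz2⟩).self_of_nhds
      simp only [Function.comp_apply, H] at h5 hz3 hz4 ⊢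
      rw [e] at hz3 hz4 ⊢
      have e2 : ofComplex ((⟨z, hz2⟩ : ℍ) : ℂ) = ⟨z, hz2⟩ := ofComplex_apply _
      rw [e2] at h5
      rw [h5] at hz3
      exact mul_left_cancel₀ hz4 hz3
  refine ⟨H, ?_, ?_⟩
  · rw [mdifferentiable_iff]
    intro z hz
    exact (((hq ⟨z, hz⟩).congr (hH ⟨z, hz⟩).symm).differentiableAt).differentiableWithinAt
  · funext τ
    have h5 := (hq2 τ).self_of_nhds
    simp only [Function.comp_apply, ofComplex_apply] at h5
    exact h5.symm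

theorem slash_pow (f : ℍ → ℂ) (k : ℤ) (n : ℕ) (γ : SL(2, ℤ)) :
    (f ^ n) ∣[(n : ℤ) * k] γ = (f ∣[k] γ) ^ n := by
  induction n with
  | zero =>
    simp only [Nat.cast_zero, zero_mul, pow_zero]
    exact is_invariant_one γ
  | succ n ih =>
    rw [pow_succ, pow_succ, ← ih, ← mul_slash_SL2]
    congr 1
    push_cast
    ring

theorem cuspFunction_not_eventually_zero {M : ℕ} (hM0 : 0 < M) {γ : SL(2, ℤ)}
    (hM : γ * ModularGroup.T ^ M * γ⁻¹ ∈ G) (hf : IsMF G k f) (hf0 : f ≠ 0) :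
    ¬ ∀ᶠ z in 𝓝 (0 : ℂ), cuspFunction M (f ∣[k] γ) z = 0 := by
  intro h
  have hM' : (0 : ℝ) < M := by exact_mod_cast hM0
  have h1 : qExpansion M (f ∣[k] γ) = 0 := by
    ext m
    rw [qExpansion_coeff]
    have h2 : cuspFunction M (f ∣[k] γ) =ᶠ[𝓝 (0 : ℂ)] (fun _ => (0 : ℂ)) := h
    rw [h2.iteratedDeriv_eq]
    simp
  rw [qExpansion_eq_zero_iff hM' (hf.periodic_slash γ hM) (hf.holo_slash γ) (hf.bdd γ)] at h1
  rw [SlashAction.slash_eq_zero_iff] at h1
  exact hf0 h1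

theorem division {F D : ℍ → ℂ} {Fn : ℕ → ℍ → ℂ} {M : ℕ} (hM0 : 0 < M)
    (hM : ∀ γ : SL(2, ℤ), γ * ModularGroup.T ^ M * γ⁻¹ ∈ G)
    (hD : IsMF G w D) (hD0 : D ≠ 0) (hF : IsMF G (w + k) F)
    (hFn : ∀ n : ℕ, IsMF G (w + (n + 1) * k) (Fn n))
    (h : ∀ n, F ^ (n + 1) = D ^ n * Fn n) :
    ∃ H : ℍ → ℂ, IsMF G k H ∧ D * H = F := by
  obtain ⟨H, hH, hDH⟩ := exists_quotient hF.holo hD.holo (fun n => (hFn n).holo) hD0 h
  have hM' : (0 : ℝ) < M := by exact_mod_cast hM0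
  refine ⟨H, ⟨hH, ?_, ?_⟩, hDH⟩
  · intro γ hγ
    have h1 : D * (H ∣[k] γ - H) = 0 := by
      rw [mul_sub, hDH]
      nth_rw 1 [← hD.slash γ hγ]
      rw [← mul_slash_SL2, hDH, hF.slash γ hγ, sub_self]
    rcases mul_eq_zero_of_holo hD.holo ((hH.slash k _).sub hH) h1 with h2 | h2
    · exact absurd h2 hD0
    · exact sub_eq_zero.mp h2
  · intro γ
    set A := F ∣[w + k] γ with hA
    set B := D ∣[w] γ with hB
    have hAB : B * (H ∣[k] γ) = A := by rw [hA, hB, ← mul_slash_SL2, hDH]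
    have hrel : ∀ n : ℕ, A ^ (n + 1) = B ^ n * (Fn n ∣[w + (n + 1) * k] γ) := by
      intro n
      rw [hA, hB, ← slash_pow, ← slash_pow, ← mul_slash_SL2, h n]
      congr 1
      push_cast
      ring
    have hAa := hF.analyticAt_slash hM0 γ (hM γ)
    have hBa := hD.analyticAt_slash hM0 γ (hM γ)
    have hCa := fun n => (hFn n).analyticAt_slash hM0 γ (hM γ)
    rw [← hA] at hAa
    rw [← hB] at hBa
    have hval : ∀ (g : ℍ → ℂ) {q : ℂ}, q ≠ 0 →
        cuspFunction M g q = g (ofComplex (Function.Periodic.invQParam M q)) := by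
      intro g q hq
      exact Function.Periodic.cuspFunction_eq_of_nonzero _ _ hq
    obtain ⟨q₀, hq₀, hq₀'⟩ := exists_local_quotient (a := cuspFunction M A)
      (d := cuspFunction M B) (b := fun n => cuspFunction M (Fn n ∣[w + (n + 1) * k] γ))
      (z₀ := 0) hAa hBa hCa (cuspFunction_not_eventually_zero hM0 (hM γ) hD hD0) (by
        intro n
        have h1 : (fun z => cuspFunction M A z ^ (n + 1)) =ᶠ[𝓝[≠] (0 : ℂ)]
            (fun z => cuspFunction M B z ^ n *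
              cuspFunction M (Fn n ∣[w + (n + 1) * k] γ) z) := by
          filter_upwards [self_mem_nhdsWithin] with z hz
          rw [hval _ hz, hval _ hz, hval _ hz]
          exact congrFun (hrel n) _
        exact (ContinuousAt.eventuallyEq_nhds_iff_eventuallyEq_nhdsNE
          (hAa.pow (n + 1)).continuousAt ((hBa.pow n).mul (hCa n)).continuousAt).mp h1)
    have hBne : ∀ᶠ z in 𝓝[≠] (0 : ℂ), cuspFunction M B z ≠ 0 := by
      rcases hBa.eventually_eq_zero_or_eventually_ne_zero with h1 | h1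
      · exact absurd h1 (cuspFunction_not_eventually_zero hM0 (hM γ) hD hD0)
      · exact h1
    have hev : ∀ᶠ z in 𝓝[≠] (0 : ℂ), cuspFunction M B z ≠ 0 ∧
        cuspFunction M A z = cuspFunction M B z * q₀ z :=
      hBne.and (hq₀'.filter_mono nhdsWithin_le_nhds)
    have htend : Tendsto (fun τ : ℍ => Function.Periodic.qParam M (τ : ℂ)) atImInfty
        (𝓝[≠] (0 : ℂ)) :=
      (Function.Periodic.qParam_tendsto hM').comp tendsto_coe_atImInfty
    have hev2 := htend.eventually hev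
    have heq : (H ∣[k] γ) =ᶠ[atImInfty] fun τ : ℍ => q₀ (Function.Periodic.qParam M (τ : ℂ)) := by
      filter_upwards [hev2] with τ hτ
      obtain ⟨h1, h2⟩ := hτ
      rw [UpperHalfPlane.eq_cuspFunction τ hM'.ne' (hD.periodic_slash γ (hM γ))] at h1 h2
      rw [UpperHalfPlane.eq_cuspFunction τ hM'.ne' (hF.periodic_slash γ (hM γ))] at h2
      have h3 := congrFun hAB τ
      simp only [Pi.mul_apply] at h3
      exact mul_left_cancel₀ h1 (h3.trans h2)
    have hlim : Tendsto (H ∣[k] γ) atImInfty (𝓝 (q₀ 0)) := by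
      refine Tendsto.congr' heq.symm ?_
      exact (hq₀.continuousAt.tendsto.mono_left nhdsWithin_le_nhds).comp htend
    exact hlim.isBigO_one ℝ

end Fermat.Agent.IntStr
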