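import Fermat.Agent.IntStr.BoundedDen

set_option autoImplicit false

noncomputable section

namespace Fermat.Agent.IntStr

open PowerSeries

/-- Coefficientwise application of a `ℚ`-linear functional `ℂ → ℚ`. -/
def coeffMap (π : ℂ →ₗ[ℚ] ℚ) (f : PowerSeries ℂ) : PowerSeries ℂ :=
  PowerSeries.mk fun n => ((π (coeff n f) : ℚ) : ℂ)

theorem coeff_coeffMap (π : ℂ →ₗ[ℚ] ℚ) (f : PowerSeries ℂ) (n : ℕ) :
    coeff n (coeffMap π f) = ((π (coeff n f) : ℚ) : ℂ) := by
  simp [coeffMap]

theorem coeffMap_add (π : ℂ →ₗ[ℚ] ℚ) (f g : PowerSeries ℂ) :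
    coeffMap π (f + g) = coeffMap π f + coeffMap π g := by
  ext n
  simp [coeff_coeffMap]

theorem coeffMap_zero (π : ℂ →ₗ[ℚ] ℚ) : coeffMap π 0 = 0 := by
  ext n
  simp [coeff_coeffMap]

theorem coeffMap_mul (π : ℂ →ₗ[ℚ] ℚ) (x : PowerSeries ℂ) {y : PowerSeries ℂ} (hy : IsRat y) :
    coeffMap π (x * y) = coeffMap π x * y := by
  ext n
  rw [coeff_coeffMap, coeff_mul, coeff_mul, map_sum, Rat.cast_sum]
  refine Finset.sum_congr rfl fun p _ => ?_
  obtain ⟨r, hr⟩ := hy p.2
  rw [coeff_coeffMap, hr]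
  have : coeff p.1 x * (r : ℂ) = r • coeff p.1 x := by
    rw [Rat.smul_def, mul_comm]
  rw [this, map_smul, smul_eq_mul, Rat.cast_mul, mul_comm]

theorem coeffMap_smul (π : ℂ →ₗ[ℚ] ℚ) (z : ℂ) {y : PowerSeries ℂ} (hy : IsRat y) :
    coeffMap π (z • y) = (π z) • y := by
  ext n
  obtain ⟨r, hr⟩ := hy n
  rw [coeff_coeffMap, coeff_smul, coeff_smul, hr, smul_eq_mul, Rat.smul_def]
  have : z * (r : ℂ) = r • z := by rw [Rat.smul_def, mul_comm]
  rw [this, map_smul, smul_eq_mul, Rat.cast_mul, mul_comm]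

theorem coeffMap_mem_span (π : ℂ →ₗ[ℚ] ℚ) {S : Set (PowerSeries ℂ)} (hS : ∀ s ∈ S, IsRat s)
    {x : PowerSeries ℂ} (hx : x ∈ Submodule.span ℂ S) :
    coeffMap π x ∈ Submodule.span ℚ S := by
  have key : ∀ z : ℂ, coeffMap π (z • x) ∈ Submodule.span ℚ S := by
    induction hx using Submodule.span_induction with
    | mem x hx =>
      intro z
      rw [coeffMap_smul π z (hS x hx)]
      exact Submodule.smul_mem _ _ (Submodule.subset_span hx)
    | zero => intro z; rw [smul_zero, coeffMap_zero]; exact zero_mem _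
    | add x y _ _ hx hy =>
      intro z
      rw [smul_add, coeffMap_add]
      exact add_mem (hx z) (hy z)
    | smul c x _ hx =>
      intro z
      rw [smul_smul]
      exact hx (z * c)
  simpa using key 1

theorem isRat_of_int {x : PowerSeries ℂ} (hx : x ∈ intSub) : IsRat x := by
  intro n
  obtain ⟨m, hm⟩ := mem_intSub.mp hx n
  exact ⟨m, by rw [hm]; simp⟩

theorem IsRat.mul {x y : PowerSeries ℂ} (hx : IsRat x) (hy : IsRat y) : IsRat (x * y) := by
  choose a ha using hx
  choose b hb using hy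
  intro n
  refine ⟨∑ p ∈ Finset.HasAntidiagonal.antidiagonal n, a p.1 * b p.2, ?_⟩
  rw [coeff_mul]
  push_cast
  exact Finset.sum_congr rfl fun p _ => by rw [ha, hb]

theorem IsRat.one : IsRat 1 := isRat_of_int intSub.one_mem

theorem IsRat.pow {x : PowerSeries ℂ} (hx : IsRat x) (n : ℕ) : IsRat (x ^ n) := by
  induction n with
  | zero => rw [pow_zero]; exact IsRat.one
  | succ n ih => rw [pow_succ]; exact ih.mul hx

theorem exists_functional {x : PowerSeries ℂ} (hx : x ≠ 0) :
    ∃ π : ℂ →ₗ[ℚ] ℚ, coeffMap π x ≠ 0 := by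
  obtain ⟨n, hn⟩ : ∃ n, coeff n x ≠ 0 := by
    by_contra h
    push Not at h
    exact hx (by ext n; simpa using h n)
  obtain ⟨π, hπ⟩ : ∃ π : Module.Dual ℚ ℂ, π (coeff n x) ≠ 0 := by
    by_contra h
    push Not at h
    exact hn ((Module.forall_dual_apply_eq_zero_iff ℚ _).mp h)
  refine ⟨π, fun h => hπ ?_⟩
  have := congrArg (coeff n) h
  rw [coeff_coeffMap, map_zero] at this
  exact_mod_cast this

/-- The set of monomials `e₄^a e₆^b g^j`, `j < n`. -/
def monoSet (e4 e6 g : PowerSeries ℂ) (n : ℕ) : Set (PowerSeries ℂ) :=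
  {x | ∃ a b j : ℕ, j < n ∧ x = e4 ^ a * e6 ^ b * g ^ j}

theorem bd_of_relation {e4 e6 g f C₀ : PowerSeries ℂ} (h4 : e4 ∈ intSub) (h6 : e6 ∈ intSub)
    (hg : g ∈ intSub) (hf : IsRat f) (hC₀ : C₀ ≠ 0) {n : ℕ}
    (h : ∀ m : ℕ, C₀ * f ^ m ∈ Submodule.span ℂ (monoSet e4 e6 g n)) : f ∈ bdAlg := by
  obtain ⟨π, hπ⟩ := exists_functional hC₀
  set C := coeffMap π C₀ with hC
  set S := monoSet e4 e6 g n with hS
  have hSint : ∀ s ∈ S, s ∈ intSub := by
    rintro s ⟨a, b, j, -, rfl⟩
    exact intSub.mul_mem (intSub.mul_mem (intSub.pow_mem h4 _) (intSub.pow_mem h6 _))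
      (intSub.pow_mem hg _)
  have hCf : ∀ m : ℕ, C * f ^ m ∈ Submodule.span ℚ S := by
    intro m
    rw [hC, ← coeffMap_mul π C₀ (hf.pow m)]
    exact coeffMap_mem_span π (fun s hs => isRat_of_int (hSint s hs)) (h m)
  -- the algebra generated by e4, e6
  let A : Subalgebra ℚ (PowerSeries ℂ) := Algebra.adjoin ℚ {e4, e6}
  have hAbd : A ≤ bdAlg := by
    refine Algebra.adjoin_le ?_
    rintro x (rfl | rfl)
    · exact bd_of_int h4
    · exact bd_of_int h6
  have hAfg : Algebra.FiniteType ℚ A := by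
    rw [← Subalgebra.fg_iff_finiteType]
    exact Subalgebra.fg_def.mpr ⟨{e4, e6}, Set.toFinite _, rfl⟩
  have hAN : IsNoetherianRing A := Algebra.FiniteType.isNoetherianRing ℚ A
  let N : Submodule A (PowerSeries ℂ) := Submodule.span A (Set.range fun j : Fin n => g ^ (j : ℕ))
  have hNfg : N.FG := Submodule.fg_span (Set.finite_range _)
  have hNN : IsNoetherian A N := isNoetherian_of_fg_of_noetherian N hNfg
  have hSN : ∀ x ∈ Submodule.span ℚ S, x ∈ N := by
    intro x hx
    induction hx using Submodule.span_induction with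
    | mem x hx =>
      obtain ⟨a, b, j, hj, rfl⟩ := hx
      have hab : e4 ^ a * e6 ^ b ∈ A :=
        mul_mem (pow_mem (Algebra.subset_adjoin (by simp)) _)
          (pow_mem (Algebra.subset_adjoin (by simp)) _)
      have : e4 ^ a * e6 ^ b * g ^ j = (⟨e4 ^ a * e6 ^ b, hab⟩ : A) • g ^ j := rfl
      rw [this]
      exact Submodule.smul_mem _ _ (Submodule.subset_span ⟨⟨j, hj⟩, rfl⟩)
    | zero => exact zero_mem _
    | add x y _ _ hx hy => exact add_mem hx hy
    | smul c x _ hx =>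
      have : c • x = (algebraMap ℚ A c) • x := by
        rw [algebraMap_smul]
      rw [this]
      exact Submodule.smul_mem _ _ hx
  have hSbd : ∀ x ∈ Submodule.span ℚ S, x ∈ bdAlg := by
    intro x hx
    have : Submodule.span ℚ S ≤ Subalgebra.toSubmodule bdAlg := by
      rw [Submodule.span_le]
      intro s hs
      exact bd_of_int (hSint s hs)
    exact this hx
  let M : Submodule A (PowerSeries ℂ) := Submodule.span A (Set.range fun m : ℕ => C * f ^ m)
  have hMN : M ≤ N := by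
    rw [Submodule.span_le]
    rintro x ⟨m, rfl⟩
    exact hSN _ (hCf m)
  have hMfg : M.FG := by
    have := (isNoetherian_submodule (N := N)).mp hNN M hMN
    exact this
  have hM0 : M ≠ ⊥ := by
    intro h0
    have : C * f ^ 0 ∈ M := Submodule.subset_span ⟨0, rfl⟩
    rw [h0, Submodule.mem_bot, pow_zero, mul_one] at this
    exact hπ this
  have hMf : ∀ x ∈ M, f • x ∈ M := by
    intro x hx
    induction hx using Submodule.span_induction with
    | mem x hx =>
      obtain ⟨m, rfl⟩ := hx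
      refine Submodule.subset_span ⟨m + 1, ?_⟩
      simp only [smul_eq_mul]
      ring
    | zero => rw [smul_zero]; exact zero_mem _
    | add x y _ _ hx hy => rw [smul_add]; exact add_mem hx hy
    | smul c x _ hx =>
      rw [smul_comm]
      exact Submodule.smul_mem _ _ hx
  have hint : IsIntegral A f := isIntegral_of_smul_mem_submodule M hM0 hMfg f hMf
  obtain ⟨P, hPm, hP0⟩ := hint
  refine bd_of_integral hf hπ (P.map (algebraMap A (PowerSeries ℂ))) (hPm.map _) ?_ ?_ ?_
  · intro i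
    rw [Polynomial.coeff_map]
    exact hAbd (P.coeff i).2
  · rw [Polynomial.eval_map]
    exact hP0
  · intro m
    exact hSbd _ (hCf m)

end Fermat.Agent.IntStr
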