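import Fermat.Agent.IntStr.LevelOne
import Fermat.Agent.IntStr.Division
import Fermat.Agent.IntStr.Trace
import Fermat.Agent.IntStr.Integral

set_option autoImplicit false

noncomputable section

namespace Fermat.Agent.IntStr

open UpperHalfPlane ModularForm CongruenceSubgroup Matrix.SpecialLinearGroup Filter
open scoped MatrixGroups Manifold Topology

theorem mem_intSub_of_isInt {f : PowerSeries ℂ} (hf : IsInt f) : f ∈ intSub :=
  mem_intSub.mpr hf

theorem map_of_int (σ : ℂ →+* ℂ) {x : PowerSeries ℂ} (hx : x ∈ intSub) :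
    PowerSeries.map σ x = x := by
  ext n
  obtain ⟨m, hm⟩ := mem_intSub.mp hx n
  rw [PowerSeries.coeff_map, hm, map_intCast]

theorem map_of_rat (σ : ℂ →+* ℂ) {x : PowerSeries ℂ} (hx : IsRat x) :
    PowerSeries.map σ x = x := by
  ext n
  obtain ⟨m, hm⟩ := hx n
  rw [PowerSeries.coeff_map, hm, map_ratCast]

theorem map_smul_ps (σ : ℂ →+* ℂ) (c : ℂ) (x : PowerSeries ℂ) :
    PowerSeries.map σ (c • x) = σ c • PowerSeries.map σ x := by
  ext n
  simp

theorem span_lvl1_le (k : ℤ) : Submodule.span ℂ (lvl1Set k) ≤ MF ⊤ k := by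
  rw [Submodule.span_le]
  intro g hg
  exact lvl1Set_mf hg

theorem T_mem_top : ModularGroup.T ∈ (⊤ : Subgroup SL(2, ℤ)) := Subgroup.mem_top _

theorem qExpansion_mono (a b : ℕ) :
    qExpansion 1 ((E₄ : ℍ → ℂ) ^ a * (E₆ : ℍ → ℂ) ^ b) =
      qExpansion 1 (E₄ : ℍ → ℂ) ^ a * qExpansion 1 (E₆ : ℍ → ℂ) ^ b := by
  rw [(E4_mf.pow a).qExpansion_mul (E6_mf.pow b) T_mem_top, E4_mf.qExpansion_pow T_mem_top,
    E6_mf.qExpansion_pow T_mem_top]

theorem qExpansion_mono_int (a b : ℕ) :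
    qExpansion 1 ((E₄ : ℍ → ℂ) ^ a * (E₆ : ℍ → ℂ) ^ b) ∈ intSub := by
  rw [qExpansion_mono]
  exact intSub.mul_mem (intSub.pow_mem (mem_intSub_of_isInt E4_int) _)
    (intSub.pow_mem (mem_intSub_of_isInt E6_int) _)

/-- Galois action on level one modular forms. -/
theorem galois_one (σ : ℂ →+* ℂ) {k : ℤ} {f : ℍ → ℂ} (hf : IsMF ⊤ k f) :
    ∃ f' : ℍ → ℂ, IsMF ⊤ k f' ∧ qExpansion 1 f' = PowerSeries.map σ (qExpansion 1 f) := by
  have hspan := lvl1_mem_span hf
  clear hf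
  induction hspan using Submodule.span_induction with
  | mem x hx =>
    refine ⟨x, lvl1Set_mf hx, ?_⟩
    obtain ⟨a, b, -, rfl⟩ := hx
    rw [map_of_int σ (qExpansion_mono_int a b)]
  | zero => exact ⟨0, IsMF.zero, by rw [qExpansion_zero, map_zero]⟩
  | add x y hx hy ihx ihy =>
    obtain ⟨x', hx', ex⟩ := ihx
    obtain ⟨y', hy', ey⟩ := ihy
    refine ⟨x' + y', hx'.add hy', ?_⟩
    rw [hx'.qExpansion_add hy' T_mem_top, ex, ey,
      IsMF.qExpansion_add (span_lvl1_le k hx) (span_lvl1_le k hy) T_mem_top, map_add]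
  | smul c x hx ihx =>
    obtain ⟨x', hx', ex⟩ := ihx
    refine ⟨σ c • x', hx'.smul _, ?_⟩
    rw [hx'.qExpansion_smul T_mem_top, ex,
      IsMF.qExpansion_smul (span_lvl1_le k hx) T_mem_top, map_smul_ps]

theorem conj_T_pow_mem (N : ℕ) (γ : SL(2, ℤ)) : γ * ModularGroup.T ^ N * γ⁻¹ ∈ Gamma0 N := by
  have h1 : (ModularGroup.T ^ N : SL(2, ℤ)) ∈ Gamma N := by
    have := ModularGroup_T_pow_mem_Gamma (N : ℤ) (N : ℤ) (dvd_refl _)
    simpa using this
  have h2 : γ * ModularGroup.T ^ N * γ⁻¹ ∈ Gamma N := (Gamma_normal N).conj_mem _ h1 γ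
  rw [Gamma0_mem]
  exact (Gamma_mem.mp h2).2.2.1

theorem map_injective_ps (σ : ℂ →+* ℂ) : Function.Injective (PowerSeries.map σ) :=
  PowerSeries.map_injective σ σ.injective

/-- Galois action on modular forms for `Γ₀(N)`. -/
theorem galois_Gamma0 {N : ℕ} [NeZero N] (σ : ℂ →+* ℂ) {k : ℤ} {f : ℍ → ℂ}
    (hf : IsMF (Gamma0 N) k f) :
    ∃ f' : ℍ → ℂ, IsMF (Gamma0 N) k f' ∧
      qExpansion 1 f' = PowerSeries.map σ (qExpansion 1 f) := by
  have hT := T_mem_Gamma0 N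
  have hg := E4N_mf N
  obtain ⟨n, w, D, hD0, hD, hrel⟩ := exists_relation hg (E4N_inj N)
  obtain ⟨D', hD', eD⟩ := galois_one σ hD
  have hqD : qExpansion 1 D ≠ 0 := fun h => hD0 (hD.eq_zero_of_qExpansion T_mem_top h)
  have hD'0 : D' ≠ 0 := by
    rintro rfl
    rw [qExpansion_zero] at eD
    exact hqD (map_injective_ps σ (by rw [← eD, map_zero]))
  have hDΓ : IsMF (Gamma0 N) w D := hD.mono le_top
  have hD'Γ : IsMF (Gamma0 N) w D' := hD'.mono le_top
  have key : ∀ m : ℕ, ∃ F : ℍ → ℂ, IsMF (Gamma0 N) (w + m * k) F ∧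
      qExpansion 1 F = PowerSeries.map σ (qExpansion 1 D * qExpansion 1 f ^ m) := by
    intro m
    obtain ⟨c, hc, hcf⟩ := hrel _ _ (hf.pow m)
    choose c' hc' ec using fun j => galois_one σ (hc j)
    have hterm : ∀ j : Fin n, IsMF (Gamma0 N) (w + m * k) (c j * E4N N ^ (j : ℕ)) := fun j =>
      (((hc j).mono le_top).mul (hg.pow (j : ℕ))).cast (by ring)
    have hterm' : ∀ j : Fin n, IsMF (Gamma0 N) (w + m * k) (c' j * E4N N ^ (j : ℕ)) := fun j =>
      (((hc' j).mono le_top).mul (hg.pow (j : ℕ))).cast (by ring)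
    refine ⟨∑ j, c' j * E4N N ^ (j : ℕ), (MF _ _).sum_mem fun j _ => hterm' j, ?_⟩
    rw [← hf.qExpansion_pow hT, ← hDΓ.qExpansion_mul (hf.pow m) hT, hcf,
      qExpansion_sum _ _ (fun j _ => hterm j) hT, qExpansion_sum _ _ (fun j _ => hterm' j) hT,
      map_sum]
    refine Finset.sum_congr rfl fun j _ => ?_
    rw [((hc j).mono le_top : IsMF (Gamma0 N) _ _).qExpansion_mul (hg.pow (j : ℕ)) hT,
      ((hc' j).mono le_top : IsMF (Gamma0 N) _ _).qExpansion_mul (hg.pow (j : ℕ)) hT, map_mul, ec,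
      hg.qExpansion_pow hT, map_pow, map_of_int σ (mem_intSub_of_isInt (E4N_int N))]
  choose F hF eF using key
  obtain ⟨H, hH, hDH⟩ := division (G := Gamma0 N) (w := w) (k := k) (F := F 1)
    (Fn := fun n => F (n + 1)) (NeZero.pos N) (conj_T_pow_mem N) hD'Γ hD'0
    ((hF 1).cast (by push_cast; ring)) (fun n => (hF (n + 1)).cast (by push_cast; ring))
    (by
      intro m
      refine IsMF.eq_of_qExpansion (k := (m + 1) * (w + k)) (G := Gamma0 N) ?_ ?_ hT ?_
      · exact ((hF 1).pow (m + 1)).cast (by push_cast; ring)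
      · exact ((hD'Γ.pow m).mul (hF (m + 1))).cast (by push_cast; ring)
      · rw [(hF 1).qExpansion_pow hT, (hD'Γ.pow m).qExpansion_mul (hF (m + 1)) hT, eF, eF,
          hD'Γ.qExpansion_pow hT, eD, ← map_pow, ← map_pow, ← map_mul]
        congr 1
        ring)
  refine ⟨H, hH, ?_⟩
  have h1 : qExpansion 1 D' * qExpansion 1 H =
      PowerSeries.map σ (qExpansion 1 D) * PowerSeries.map σ (qExpansion 1 f) := by
    rw [← hD'Γ.qExpansion_mul hH hT, hDH, eF, pow_one, map_mul]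
  rw [← eD] at h1
  refine mul_left_cancel₀ ?_ h1
  intro h
  exact hD'0 (hD'.eq_zero_of_qExpansion T_mem_top h)

end Fermat.Agent.IntStr
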