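import Fermat.Agent.IntStr.AutC

set_option autoImplicit false

noncomputable section

namespace Fermat.Agent.IntStr

open PowerSeries

/-- The subring of power series with integer coefficients. -/
def intSub : Subring (PowerSeries ℂ) := (PowerSeries.map (Int.castRingHom ℂ)).range

theorem mem_intSub {f : PowerSeries ℂ} : f ∈ intSub ↔ ∀ n : ℕ, ∃ m : ℤ, coeff n f = (m : ℂ) := by
  constructor
  · rintro ⟨g, rfl⟩ n
    exact ⟨coeff n g, by simp⟩
  · intro h
    choose m hm using h
    refine ⟨PowerSeries.mk m, ?_⟩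
    ext n
    simp [hm]

/-- A power series with rational coefficients. -/
def IsRat (f : PowerSeries ℂ) : Prop := ∀ n : ℕ, ∃ r : ℚ, coeff n f = (r : ℂ)

theorem rat_int_of_pow {a : ℚ} {c : ℤ} (hc : c ≠ 0) (h : ∀ n : ℕ, ∃ k : ℤ, (c : ℚ) * a ^ n = k) :
    ∃ m : ℤ, a = m := by
  have hdvd : ∀ n : ℕ, a.den ^ n ∣ c.natAbs := by
    intro n
    obtain ⟨k, hk⟩ := h n
    have hden : (a.den : ℚ) ≠ 0 := by exact_mod_cast a.den_nz
    have h1 : (c : ℚ) * (a.num : ℚ) ^ n = k * (a.den : ℚ) ^ n := by
      rw [← hk, mul_assoc, ← mul_pow]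
      congr 2
      exact (Rat.mul_den_eq_num a).symm
    have h2 : c * a.num ^ n = k * (a.den : ℤ) ^ n := by exact_mod_cast h1
    have h3 : ((a.den ^ n : ℕ) : ℤ) ∣ c * a.num ^ n := by
      rw [h2]; push_cast; exact dvd_mul_left _ _
    have h4 : IsCoprime ((a.den ^ n : ℕ) : ℤ) (a.num ^ n) := by
      have : IsCoprime (a.den : ℤ) a.num := by
        rw [Int.isCoprime_iff_gcd_eq_one, Int.gcd_comm]
        simpa [Int.gcd] using a.reduced
      push_cast
      exact this.pow
    have h5 := h4.dvd_of_dvd_mul_right h3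
    exact Int.natCast_dvd.mp h5
  have hden1 : a.den = 1 := by
    by_contra hne
    have h2 : 2 ≤ a.den := by
      have := a.den_pos
      omega
    have h3 := Nat.le_of_dvd (Int.natAbs_pos.mpr hc) (hdvd c.natAbs)
    have h4 : c.natAbs < 2 ^ c.natAbs := Nat.lt_two_pow_self
    have h5 : 2 ^ c.natAbs ≤ a.den ^ c.natAbs := Nat.pow_le_pow_left h2 _
    omega
  exact ⟨a.num, ((Rat.den_eq_one_iff a).mp hden1).symm⟩

/-- Complete integral closedness of `ℤ⟦X⟧`. -/
theorem mem_intSub_of_almost {h C : PowerSeries ℂ} (hh : IsRat h) (hC : C ≠ 0)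
    (hCh : ∀ n : ℕ, C * h ^ n ∈ intSub) : h ∈ intSub := by
  classical
  rw [mem_intSub]
  by_contra hcon
  push Not at hcon
  set n₀ := Nat.find hcon with hn₀
  have hn₀' : ∀ m : ℤ, coeff n₀ h ≠ m := Nat.find_spec hcon
  have hlow : ∀ i < n₀, ∃ m : ℤ, coeff i h = m := by
    intro i hi
    have := Nat.find_min hcon hi
    push Not at this
    exact this
  let h₀ : PowerSeries ℂ := PowerSeries.mk fun i => if i < n₀ then coeff i h else 0
  let h' : PowerSeries ℂ := PowerSeries.mk fun i => coeff (i + n₀) h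
  have hh₀ : h₀ ∈ intSub := by
    rw [mem_intSub]
    intro n
    simp only [h₀, coeff_mk]
    split_ifs with hn
    · exact hlow n hn
    · exact ⟨0, by simp⟩
  have hdec : h - h₀ = X ^ n₀ * h' := by
    ext i
    rw [map_sub, coeff_X_pow_mul']
    simp only [h₀, h', coeff_mk]
    by_cases hi : n₀ ≤ i
    · rw [if_neg (by omega), if_pos hi, Nat.sub_add_cancel hi, sub_zero]
    · rw [if_pos (by omega), if_neg hi, sub_self]
  have h1 : ∀ n : ℕ, C * (h - h₀) ^ n ∈ intSub := by
    intro n
    rw [sub_eq_add_neg, add_pow, Finset.mul_sum]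
    refine intSub.sum_mem fun m _ => ?_
    have : C * (h ^ m * (-h₀) ^ (n - m) * (n.choose m : PowerSeries ℂ)) =
        (C * h ^ m) * ((-h₀) ^ (n - m) * (n.choose m : PowerSeries ℂ)) := by ring
    rw [this]
    exact intSub.mul_mem (hCh m)
      (intSub.mul_mem (intSub.pow_mem (intSub.neg_mem hh₀) _) (natCast_mem _ _))
  have h2 : ∀ n : ℕ, C * h' ^ n ∈ intSub := by
    intro n
    rw [mem_intSub]
    intro i
    obtain ⟨m, hm⟩ := mem_intSub.mp (h1 n) (i + n₀ * n)
    refine ⟨m, ?_⟩
    rw [hdec, mul_pow, ← pow_mul, mul_left_comm, coeff_X_pow_mul] at hm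
    exact hm
  -- leading coefficients
  obtain ⟨m₀, hm₀, hm₀'⟩ : ∃ m₀, coeff m₀ C ≠ 0 ∧ ∀ i < m₀, coeff i C = 0 := by
    have hex : ∃ m, coeff m C ≠ 0 := by
      by_contra hne
      push Not at hne
      exact hC (by ext i; simp [hne i])
    exact ⟨Nat.find hex, Nat.find_spec hex, fun i hi => by
      have := Nat.find_min hex hi
      push Not at this
      exact this⟩
  obtain ⟨c, hc⟩ : ∃ c : ℤ, coeff m₀ C = c := by
    have := mem_intSub.mp (hCh 0) m₀
    simpa using this
  obtain ⟨a, ha⟩ := hh n₀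
  have hlead : ∀ n : ℕ, coeff m₀ (C * h' ^ n) = (c : ℂ) * (a : ℂ) ^ n := by
    intro n
    rw [coeff_mul, Finset.sum_eq_single (m₀, 0)]
    · have h3 : coeff 0 (h' ^ n) = (a : ℂ) ^ n := by
        rw [coeff_zero_eq_constantCoeff, map_pow]
        congr 1
        rw [← coeff_zero_eq_constantCoeff_apply]
        simp only [h', coeff_mk, zero_add]
        exact ha
      rw [h3, hc]
    · rintro ⟨i, j⟩ hij hne
      rw [Finset.HasAntidiagonal.mem_antidiagonal] at hij
      have : i < m₀ := by
        rcases Nat.lt_or_ge i m₀ with h | h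
        · exact h
        · exfalso
          apply hne
          simp only at hij
          ext <;> simp <;> omega
      simp [hm₀' i this]
    · intro hne
      exact absurd (Finset.HasAntidiagonal.mem_antidiagonal.mpr (add_zero m₀)) hne
  have hc0 : c ≠ 0 := by
    rintro rfl
    exact hm₀ (by simpa using hc)
  obtain ⟨m, hm⟩ := rat_int_of_pow (a := a) hc0 (fun n => by
    obtain ⟨k, hk⟩ := mem_intSub.mp (h2 n) m₀
    rw [hlead n] at hk
    exact ⟨k, by exact_mod_cast hk⟩)
  exact hn₀' m (by rw [ha, hm]; simp)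

/-- Galois descent for spaces of power series satisfying a Sturm-type bound. -/
theorem descent (V : Submodule ℂ (PowerSeries ℂ))
    (hσ : ∀ σ : ℂ ≃+* ℂ, ∀ v ∈ V, PowerSeries.map (σ : ℂ →+* ℂ) v ∈ V) (B : ℕ)
    (hB : ∀ v ∈ V, (∀ i < B, coeff i v = 0) → v = 0) :
    V ≤ Submodule.span ℂ {v | v ∈ V ∧ IsRat v} := by
  classical
  let S : PowerSeries ℂ → Finset ℕ := fun v => (Finset.range B).filter fun i => coeff i v ≠ 0
  have hS : ∀ v i, i ∈ S v ↔ i < B ∧ coeff i v ≠ 0 := by
    intro v i
    simp [S]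
  have hS0 : ∀ v ∈ V, S v = ∅ → v = 0 := by
    intro v hv h
    apply hB v hv
    intro i hi
    by_contra hne
    have : i ∈ S v := (hS v i).mpr ⟨hi, hne⟩
    rw [h] at this
    exact absurd this (Finset.notMem_empty i)
  set W := Submodule.span ℂ {v | v ∈ V ∧ IsRat v} with hW
  suffices key : ∀ n : ℕ, ∀ v ∈ V, (S v).card = n → v ∈ W from fun v hv => key _ v hv rfl
  intro n
  induction n using Nat.strong_induction_on with
  | _ n ih =>
    intro v hv hn
    by_cases hv0 : v = 0
    · rw [hv0]; exact W.zero_mem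
    -- a nonzero vector of minimal support inside the support of `v`
    let P : ℕ → Prop := fun m => ∃ u ∈ V, u ≠ 0 ∧ S u ⊆ S v ∧ (S u).card = m
    have hP : ∃ m, P m := ⟨(S v).card, v, hv, hv0, subset_rfl, rfl⟩
    obtain ⟨u, hu, hu0, huS, hum⟩ := Nat.find_spec hP
    have hmin : ∀ u' ∈ V, u' ≠ 0 → S u' ⊆ S v → (S u).card ≤ (S u').card := by
      intro u' h1 h2 h3
      rw [hum]
      exact Nat.find_min' hP ⟨u', h1, h2, h3, rfl⟩
    obtain ⟨i, hi⟩ : (S u).Nonempty := by
      rw [Finset.nonempty_iff_ne_empty]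
      exact fun h => hu0 (hS0 u hu h)
    have hui : coeff i u ≠ 0 := ((hS u i).mp hi).2
    set u' := (coeff i u)⁻¹ • u with hu'
    have hu'V : u' ∈ V := V.smul_mem _ hu
    have hu'i : coeff i u' = 1 := by
      rw [hu', coeff_smul, smul_eq_mul, inv_mul_cancel₀ hui]
    have hu'S : ∀ j, j ∈ S u' → j ∈ S u := by
      intro j hj
      rw [hS] at hj ⊢
      refine ⟨hj.1, fun h => hj.2 ?_⟩
      rw [hu', coeff_smul, h, smul_zero]
    have hfix : ∀ σ : ℂ ≃+* ℂ, PowerSeries.map (σ : ℂ →+* ℂ) u' = u' := by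
      intro σ
      by_contra hne
      set w := PowerSeries.map (σ : ℂ →+* ℂ) u' - u' with hw
      have hwV : w ∈ V := V.sub_mem (hσ σ u' hu'V) hu'V
      have hw0 : w ≠ 0 := sub_ne_zero.mpr hne
      have hwc : ∀ j, coeff j w = σ (coeff j u') - coeff j u' := by
        intro j
        rw [hw, map_sub, coeff_map]
        rfl
      have hwS : S w ⊆ (S u).erase i := by
        intro j hj
        rw [hS, hwc] at hj
        rw [Finset.mem_erase]
        constructor
        · rintro rfl
          apply hj.2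
          rw [hu'i, map_one, sub_self]
        · apply hu'S
          rw [hS]
          refine ⟨hj.1, fun h => hj.2 ?_⟩
          rw [h, map_zero, sub_self]
      have h1 := hmin w hwV hw0 ((hwS.trans (Finset.erase_subset _ _)).trans huS)
      have h2 := Finset.card_le_card hwS
      rw [Finset.card_erase_of_mem hi] at h2
      have h3 : 0 < (S u).card := Finset.card_pos.mpr ⟨i, hi⟩
      omega
    have hu'rat : IsRat u' := by
      intro j
      by_contra hne
      push Not at hne
      obtain ⟨σ, hσ'⟩ := exists_ringEquiv_ne (z := coeff j u') (by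
        rintro ⟨r, hr⟩
        exact hne r (by rw [← hr]; rfl))
      apply hσ'
      have := congrArg (coeff j) (hfix σ)
      rw [coeff_map] at this
      exact this
    have hu'W : u' ∈ W := Submodule.subset_span ⟨hu'V, hu'rat⟩
    have h4 : v - coeff i v • u' ∈ W := by
      refine ih (S (v - coeff i v • u')).card ?_ _ (V.sub_mem hv (V.smul_mem _ hu'V)) rfl
      have hsub : S (v - coeff i v • u') ⊆ (S v).erase i := by
        intro j hj
        rw [hS, map_sub, coeff_smul, smul_eq_mul] at hj
        rw [Finset.mem_erase]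
        constructor
        · rintro rfl
          apply hj.2
          rw [hu'i, mul_one, sub_self]
        · rw [hS]
          refine ⟨hj.1, fun h => hj.2 ?_⟩
          have h5 : j ∉ S u' := by
            intro h6
            exact ((hS v j).mp (huS (hu'S j h6))).2 h
          have h6 : coeff j u' = 0 := by
            by_contra h7
            exact h5 ((hS u' j).mpr ⟨hj.1, h7⟩)
          rw [h, h6, mul_zero, sub_zero]
      have h5 := Finset.card_le_card hsub
      rw [Finset.card_erase_of_mem (huS hi)] at h5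
      have h6 : 0 < (S v).card := Finset.card_pos.mpr ⟨i, huS hi⟩
      omega
    have h7 : v = (v - coeff i v • u') + coeff i v • u' := by ring
    rw [h7]
    exact W.add_mem h4 (W.smul_mem _ hu'W)

end Fermat.Agent.IntStr
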